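import Mathlib
import Fermat.Agent.S34.Nodal.DualizingDim

/-!
# PROJECT H (S17), stock (A1): the full Riemann–Roch theorem in the prelude language

`K` algebraically closed (any characteristic), `F/K` a function field with a separating element
`x` (`hx : S24.FF.IsFF K x`, `hsep : Algebra.IsSeparable K⟮x⟯ F`), Riemann genus `g`
(`hR : S18.NonSpecial.RiemannHyp K F g`), `canDiv hx hsep = div(dx)` (`S37.Diff.OrdBounds`).

* `degree_canDiv`  : `deg canDiv = 2g - 2`;
* `step`           : for a place `P` at which `x` is regular,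
  `l(D + P) + l(canDiv - D) ≤ l(D) + l(canDiv - (D + P)) + 1`
  (from `S34.Nodal.DualizingDim.riemannRochSpace_canDiv_add_single`, the residue theorem for one
  simple pole);
* `riemann_roch`   : `l(D) = deg D + 1 - g + l(canDiv - D)` for every divisor `D`;
* corollaries: `ell_eq_of_le_degree` (`deg D ≥ 2g - 1`), `ell_sub_single` (`deg D ≥ 2g`: base
  point free), `ell_sub_single_single` (`deg D ≥ 2g + 1`: separates points and tangents),
  `ell_canDiv_sub`.
-/

set_option autoImplicit false

namespace Fermat.Agent.S17.RR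

open AlgebraicCurve IntermediateField
  Fermat.Agent.S24.FF Fermat.Agent.S24.Ord
  Fermat.Agent.S18.A Fermat.Agent.S37.Diff.OrdBounds

universe u w

variable {K : Type w} {F : Type u} [Field K] [Field F] [Algebra K F]

local notation "ℓ" => Fermat.Agent.S18.NonSpecial.ell

/-! ### elementary facts on `L(D + P)` versus `L(D)` -/

/-- an element of `L(D + P)` outside `L(D)` has exact order `-D P - 1` at `P` -/
theorem ord_eq_of_mem_of_not_mem {D : Divisor K F} {P : Place K F} {f : F}
    (hf : f ∈ riemannRochSpace (D + Finsupp.single P 1)) (hf' : f ∉ riemannRochSpace D) :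
    f ≠ 0 ∧ P.ord f = -D P - 1 := by
  classical
  have hf0 : f ≠ 0 := fun h => hf' (h ▸ (riemannRochSpace D).zero_mem)
  refine ⟨hf0, ?_⟩
  have h1 := ((mem_riemannRochSpace_iff.mp hf) P).resolve_left hf0
  rw [Finsupp.add_apply, Finsupp.single_eq_same] at h1
  by_contra hne
  apply hf'
  rw [mem_riemannRochSpace_iff]
  intro v
  right
  by_cases hv : v = P
  · subst hv
    omega
  · have h2 := ((mem_riemannRochSpace_iff.mp hf) v).resolve_left hf0
    rw [Finsupp.add_apply, Finsupp.single_apply, if_neg (Ne.symm hv), add_zero] at h2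
    exact h2

theorem ord_ge_of_mem_add_single {D : Divisor K F} {P : Place K F} {f : F} (hf0 : f ≠ 0)
    (hf : f ∈ riemannRochSpace (D + Finsupp.single P 1)) {v : Place K F} (hv : v ≠ P) :
    -D v ≤ v.ord f := by
  classical
  have h2 := ((mem_riemannRochSpace_iff.mp hf) v).resolve_left hf0
  rw [Finsupp.add_apply, Finsupp.single_apply, if_neg (Ne.symm hv), add_zero] at h2
  exact h2

/-- **the product lemma**: `f ∈ L(D + P) ∖ L(D)` and `h ∈ L(E + P) ∖ L(E)` give
`f h ∈ L(D + E + P + P) `, of exact order `-(D + E) P - 2` at `P`. We only need the following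
form: if `D + E + P = C` then `f * h ∈ L(C + P) ∖ L(C)`. -/
theorem mul_mem_of_mem_of_not_mem {D E C : Divisor K F} {P : Place K F} {f h : F}
    (hC : D + E + Finsupp.single P 1 = C)
    (hf : f ∈ riemannRochSpace (D + Finsupp.single P 1)) (hf' : f ∉ riemannRochSpace D)
    (hh : h ∈ riemannRochSpace (E + Finsupp.single P 1)) (hh' : h ∉ riemannRochSpace E) :
    f * h ∈ riemannRochSpace (C + Finsupp.single P 1) ∧ f * h ∉ riemannRochSpace C := by
  classical
  obtain ⟨hf0, hfP⟩ := ord_eq_of_mem_of_not_mem hf hf'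
  obtain ⟨hh0, hhP⟩ := ord_eq_of_mem_of_not_mem hh hh'
  have hfh0 : f * h ≠ 0 := mul_ne_zero hf0 hh0
  have hCP : C P = D P + E P + 1 := by
    rw [← hC, Finsupp.add_apply, Finsupp.add_apply, Finsupp.single_eq_same]
  have hCv : ∀ v : Place K F, v ≠ P → C v = D v + E v := by
    intro v hv
    rw [← hC, Finsupp.add_apply, Finsupp.add_apply, Finsupp.single_apply, if_neg (Ne.symm hv),
      add_zero]
  constructor
  · rw [mem_riemannRochSpace_iff]
    intro v
    right
    rw [v.ord_mul hf0 hh0]
    by_cases hv : v = P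
    · subst hv
      rw [Finsupp.add_apply, Finsupp.single_eq_same, hCP, hfP, hhP]
      omega
    · rw [Finsupp.add_apply, Finsupp.single_apply, if_neg (Ne.symm hv), add_zero, hCv v hv]
      have h1 := ord_ge_of_mem_add_single hf0 hf hv
      have h2 := ord_ge_of_mem_add_single hh0 hh hv
      omega
  · intro hmem
    have h1 := ((mem_riemannRochSpace_iff.mp hmem) P).resolve_left hfh0
    rw [P.ord_mul hf0 hh0, hfP, hhP, hCP] at h1
    omega

section Main

variable [IsAlgClosed K] {x : F}

/-- `deg div(dx) = 2g - 2` -/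
theorem degree_canDiv (hx : IsFF K x) (hsep : Algebra.IsSeparable K⟮x⟯ F) {g : ℕ}
    (hR : Fermat.Agent.S18.NonSpecial.RiemannHyp K F g) :
    Divisor.degree (canDiv hx hsep) = 2 * (g : ℤ) - 2 := by
  rw [canDiv_eq, map_add, map_zsmul, FibreSep.degree_poleDiv, Hurwitz.degree_diffDivisor hx hsep hR,
    smul_eq_mul]
  ring

/-- **the step**: adding a place at which `x` is regular. -/
theorem step (hx : IsFF K x) (hsep : Algebra.IsSeparable K⟮x⟯ F) {g : ℕ}
    (hR : Fermat.Agent.S18.NonSpecial.RiemannHyp K F g) (D : Divisor K F) {P : Place K F}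
    (hP : P.adicValuation x ≤ 1) :
    ℓ (D + Finsupp.single P 1) + ℓ (canDiv hx hsep - D) ≤
      ℓ D + ℓ (canDiv hx hsep - (D + Finsupp.single P 1)) + 1 := by
  have hfin := hR.finite
  set E : Divisor K F := canDiv hx hsep - (D + Finsupp.single P 1) with hE
  have hEP : E + Finsupp.single P 1 = canDiv hx hsep - D := by
    rw [hE]; abel
  by_cases hle : riemannRochSpace (D + Finsupp.single P 1) ≤ riemannRochSpace D
  · have h1 : ℓ (D + Finsupp.single P 1) ≤ ℓ D := by
      have := hfin D
      exact Submodule.finrank_mono hle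
    have h2 : ℓ (canDiv hx hsep - D) ≤ ℓ E + 1 := by
      rw [← hEP]
      exact Fermat.Agent.S18.NonSpecial.ell_add_single_le hfin E (hR.deg_one P)
    omega
  · obtain ⟨f, hf, hf'⟩ := SetLike.not_le_iff_exists.mp hle
    have h1 : ℓ (D + Finsupp.single P 1) ≤ ℓ D + 1 :=
      Fermat.Agent.S18.NonSpecial.ell_add_single_le hfin D (hR.deg_one P)
    have h2 : ℓ (canDiv hx hsep - D) ≤ ℓ E := by
      have := hfin E
      refine Submodule.finrank_mono ?_
      intro h hh
      by_contra hh'
      rw [← hEP] at hh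
      have hC : D + E + Finsupp.single P 1 = canDiv hx hsep := by
        rw [hE]; abel
      obtain ⟨hm, hm'⟩ := mul_mem_of_mem_of_not_mem hC hf hf' hh hh'
      rw [Fermat.Agent.S34.Nodal.DualizingDim.riemannRochSpace_canDiv_add_single hx hsep hP] at hm
      exact hm' hm
    omega

/-- the step, iterated over a finite set of places at which `x` is regular -/
theorem step_sumPlaces (hx : IsFF K x) (hsep : Algebra.IsSeparable K⟮x⟯ F) {g : ℕ}
    (hR : Fermat.Agent.S18.NonSpecial.RiemannHyp K F g) (D : Divisor K F)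
    (T : Finset (Place K F)) (hT : ∀ a ∈ T, a.adicValuation x ≤ 1) :
    ℓ (D + Fermat.Agent.S18.NonSpecial.sumPlaces T) + ℓ (canDiv hx hsep - D) ≤
      ℓ D + ℓ (canDiv hx hsep - (D + Fermat.Agent.S18.NonSpecial.sumPlaces T)) + T.card := by
  classical
  induction T using Finset.induction_on with
  | empty =>
    rw [Fermat.Agent.S18.NonSpecial.sumPlaces_empty, add_zero, Finset.card_empty]
    omega
  | insert Q T hQ ih =>
    rw [Fermat.Agent.S18.NonSpecial.sumPlaces_insert hQ, ← add_assoc,
      Finset.card_insert_of_notMem hQ]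
    have h1 := ih fun a ha => hT a (Finset.mem_insert_of_mem ha)
    have h2 := step hx hsep hR (D + Fermat.Agent.S18.NonSpecial.sumPlaces T)
      (hT Q (Finset.mem_insert_self _ _))
    omega

/-- there are arbitrarily many places at which `x` is regular -/
theorem exists_regular_finset (hx : IsFF K x) (hsep : Algebra.IsSeparable K⟮x⟯ F)
    (hinf : Infinite (Place K F)) (M : ℕ) :
    ∃ T : Finset (Place K F), T.card = M ∧ ∀ a ∈ T, a.adicValuation x ≤ 1 := by
  classical
  have hfinP : ({v : Place K F | ¬ v.adicValuation x ≤ 1}).Finite := by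
    refine (FibreSep.poles hx hsep).finite_toSet.subset fun v hv => ?_
    rw [Finset.mem_coe, FibreSep.mem_poles_iff_ord_neg]
    by_contra hneg
    apply hv
    exact (ord_nonneg_iff v hx.ne_zero).mp (not_lt.mp hneg)
  have hinfS : ({v : Place K F | v.adicValuation x ≤ 1}).Infinite := by
    have h := (Set.infinite_univ (α := Place K F)).sdiff hfinP
    refine h.mono fun v hv => ?_
    by_contra hcon
    exact hv.2 hcon
  obtain ⟨T, hTsub, hTcard⟩ := hinfS.exists_subset_card_eq M
  exact ⟨T, hTcard, fun a ha => hTsub ha⟩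

/-- one half of Riemann–Roch, for all divisors -/
theorem riemann_roch_ge [HasPrincipalDivisors K F] (hx : IsFF K x)
    (hsep : Algebra.IsSeparable K⟮x⟯ F) {g : ℕ}
    (hR : Fermat.Agent.S18.NonSpecial.RiemannHyp K F g) (D : Divisor K F) :
    Divisor.degree D + 1 - g + (ℓ (canDiv hx hsep - D) : ℤ) ≤ (ℓ D : ℤ) := by
  obtain ⟨c, hc⟩ := hR.riemann_eq
  set M : ℕ := (max (c - Divisor.degree D) (2 * (g : ℤ) - 1 - Divisor.degree D)).toNat with hM
  obtain ⟨T, hTcard, hT⟩ := exists_regular_finset hx hsep hR.infinite M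
  have hstep := step_sumPlaces hx hsep hR D T hT
  have hdegE : Divisor.degree (D + Fermat.Agent.S18.NonSpecial.sumPlaces T) =
      Divisor.degree D + M := by
    rw [map_add, Fermat.Agent.S18.NonSpecial.degree_sumPlaces hR.deg_one, hTcard]
  have hMge : max (c - Divisor.degree D) (2 * (g : ℤ) - 1 - Divisor.degree D) ≤ (M : ℤ) :=
    Int.self_le_toNat _
  have hc1 : c - Divisor.degree D ≤ (M : ℤ) := le_trans (le_max_left _ _) hMge
  have hc2 : 2 * (g : ℤ) - 1 - Divisor.degree D ≤ (M : ℤ) := le_trans (le_max_right _ _) hMge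
  have heq := hc (D + Fermat.Agent.S18.NonSpecial.sumPlaces T) (by rw [hdegE]; omega)
  rw [hdegE] at heq
  have hneg : Divisor.degree (canDiv hx hsep - (D + Fermat.Agent.S18.NonSpecial.sumPlaces T)) < 0 := by
    rw [map_sub, degree_canDiv hx hsep hR, hdegE]
    omega
  have hzero : ℓ (canDiv hx hsep - (D + Fermat.Agent.S18.NonSpecial.sumPlaces T)) = 0 :=
    Fermat.Agent.S18.A.Riemann.ell_eq_zero_of_degree_neg hneg
  rw [hzero, hTcard] at hstep
  have hstepZ : ((ℓ (D + Fermat.Agent.S18.NonSpecial.sumPlaces T) : ℕ) : ℤ) +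
      (ℓ (canDiv hx hsep - D) : ℤ) ≤ (ℓ D : ℤ) + 0 + M := by
    exact_mod_cast hstep
  omega

/-- **The Riemann–Roch theorem.** -/
theorem riemann_roch [HasPrincipalDivisors K F] (hx : IsFF K x)
    (hsep : Algebra.IsSeparable K⟮x⟯ F) {g : ℕ}
    (hR : Fermat.Agent.S18.NonSpecial.RiemannHyp K F g) (D : Divisor K F) :
    (ℓ D : ℤ) = Divisor.degree D + 1 - g + (ℓ (canDiv hx hsep - D) : ℤ) := by
  have h1 := riemann_roch_ge hx hsep hR D
  have h2 := riemann_roch_ge hx hsep hR (canDiv hx hsep - D)
  rw [sub_sub_cancel, map_sub, degree_canDiv hx hsep hR] at h2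
  omega

/-! ### corollaries -/

/-- `l(D) = deg D + 1 - g` for `deg D ≥ 2g - 1` -/
theorem ell_eq_of_le_degree [HasPrincipalDivisors K F] (hx : IsFF K x)
    (hsep : Algebra.IsSeparable K⟮x⟯ F) {g : ℕ}
    (hR : Fermat.Agent.S18.NonSpecial.RiemannHyp K F g) {D : Divisor K F}
    (hD : 2 * (g : ℤ) - 1 ≤ Divisor.degree D) :
    (ℓ D : ℤ) = Divisor.degree D + 1 - g := by
  have h := riemann_roch hx hsep hR D
  have hneg : Divisor.degree (canDiv hx hsep - D) < 0 := by
    rw [map_sub, degree_canDiv hx hsep hR]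
    omega
  have hzero : ℓ (canDiv hx hsep - D) = 0 :=
    Fermat.Agent.S18.A.Riemann.ell_eq_zero_of_degree_neg hneg
  rw [hzero] at h
  simpa using h

/-- `l(canDiv - B) = g - 1 - deg B + l(B)` -/
theorem ell_canDiv_sub [HasPrincipalDivisors K F] (hx : IsFF K x)
    (hsep : Algebra.IsSeparable K⟮x⟯ F) {g : ℕ}
    (hR : Fermat.Agent.S18.NonSpecial.RiemannHyp K F g) (B : Divisor K F) :
    (ℓ (canDiv hx hsep - B) : ℤ) = (g : ℤ) - 1 - Divisor.degree B + (ℓ B : ℤ) := by
  have h := riemann_roch hx hsep hR B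
  omega

/-- a divisor of degree `≥ 2g` is base point free: `l(D - P) + 1 = l(D)` -/
theorem ell_sub_single [HasPrincipalDivisors K F] (hx : IsFF K x)
    (hsep : Algebra.IsSeparable K⟮x⟯ F) {g : ℕ}
    (hR : Fermat.Agent.S18.NonSpecial.RiemannHyp K F g) {D : Divisor K F}
    (hD : 2 * (g : ℤ) ≤ Divisor.degree D) (P : Place K F) :
    ℓ (D - Finsupp.single P 1) + 1 = ℓ D := by
  have hdeg : Divisor.degree (D - Finsupp.single P 1) = Divisor.degree D - 1 := by
    rw [map_sub, Divisor.degree_single, hR.deg_one P]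
    simp
  have h1 := ell_eq_of_le_degree hx hsep hR (D := D) (by omega)
  have h2 := ell_eq_of_le_degree hx hsep hR (D := D - Finsupp.single P 1) (by rw [hdeg]; omega)
  rw [hdeg] at h2
  omega

/-- a divisor of degree `≥ 2g + 1` separates points and tangents: `l(D - P - R) + 2 = l(D)` -/
theorem ell_sub_single_single [HasPrincipalDivisors K F] (hx : IsFF K x)
    (hsep : Algebra.IsSeparable K⟮x⟯ F) {g : ℕ}
    (hR : Fermat.Agent.S18.NonSpecial.RiemannHyp K F g) {D : Divisor K F}
    (hD : 2 * (g : ℤ) + 1 ≤ Divisor.degree D) (P R : Place K F) :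
    ℓ (D - Finsupp.single P 1 - Finsupp.single R 1) + 2 = ℓ D := by
  have hdeg : Divisor.degree (D - Finsupp.single P 1) = Divisor.degree D - 1 := by
    rw [map_sub, Divisor.degree_single, hR.deg_one P]
    simp
  have h1 := ell_sub_single hx hsep hR (D := D) (by omega) P
  have h2 := ell_sub_single hx hsep hR (D := D - Finsupp.single P 1) (by rw [hdeg]; omega) R
  omega

end Main

end Fermat.Agent.S17.RR
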