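import Mathlib
import Fermat.Agent.S17.RR.RiemannRoch
import Fermat.Agent.S18.A.Hurwitz
import Fermat.Agent.S18.A.Instances

/-!
# PROJECT H (S17), stock (A1): Riemann–Roch for `F = ℚ̄(X₀(N))`

`KX0 N = div(dj)`, the canonical divisor of `ℚ̄(X₀(N))` for the separating variable `j`.

`exists_genus_rr N` : there is `g` with Riemann's theorem (`RiemannHyp`), `deg KX0 = 2g - 2`,
`l(KX0) = g` and the full Riemann–Roch theorem `l(D) = deg D + 1 - g + l(KX0 - D)`, together with
the three standard corollaries (`deg ≥ 2g - 1`, `≥ 2g`, `≥ 2g + 1`).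
-/

set_option autoImplicit false

namespace Fermat.Agent.S17.RR.X0

open AlgebraicCurve ModularCurve Fermat.Agent.S18.A Fermat.Agent.S37.Diff.OrdBounds

local notation "Kb" => AlgebraicClosure ℚ
local notation "ℓ" => Fermat.Agent.S18.NonSpecial.ell

variable (N : ℕ) [NeZero N]

/-- the canonical divisor `div(dj)` of `ℚ̄(X₀(N))` -/
noncomputable def KX0 : Divisor Kb (modularFunctionFieldBar N) :=
  canDiv (Instances.isFF_jgen N) (Instances.isSeparable_jgen N)

/-- **Riemann–Roch for `ℚ̄(X₀(N))`**, with all the corollaries used by PROJECT H. -/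
theorem exists_genus_rr :
    ∃ g : ℕ, Fermat.Agent.S18.NonSpecial.RiemannHyp Kb (modularFunctionFieldBar N) g ∧
      Divisor.degree (KX0 N) = 2 * (g : ℤ) - 2 ∧
      ℓ (KX0 N) = g ∧
      (∀ D : Divisor Kb (modularFunctionFieldBar N),
        (ℓ D : ℤ) = Divisor.degree D + 1 - g + (ℓ (KX0 N - D) : ℤ)) ∧
      (∀ D : Divisor Kb (modularFunctionFieldBar N), 2 * (g : ℤ) - 1 ≤ Divisor.degree D →
        (ℓ D : ℤ) = Divisor.degree D + 1 - g) ∧
      (∀ D : Divisor Kb (modularFunctionFieldBar N), 2 * (g : ℤ) ≤ Divisor.degree D →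
        ∀ P : Place Kb (modularFunctionFieldBar N), ℓ (D - Finsupp.single P 1) + 1 = ℓ D) ∧
      (∀ D : Divisor Kb (modularFunctionFieldBar N), 2 * (g : ℤ) + 1 ≤ Divisor.degree D →
        ∀ P R : Place Kb (modularFunctionFieldBar N),
          ℓ (D - Finsupp.single P 1 - Finsupp.single R 1) + 2 = ℓ D) := by
  have hP := Instances.hasPrincipalDivisors_bar N
  obtain ⟨g, hR, -⟩ := Hurwitz.exists_genus_FL N
  have hx := Instances.isFF_jgen N
  have hsep := Instances.isSeparable_jgen N
  refine ⟨g, hR, degree_canDiv hx hsep hR, ?_, fun D => riemann_roch hx hsep hR D,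
    fun D hD => ell_eq_of_le_degree hx hsep hR hD, fun D hD P => ell_sub_single hx hsep hR hD P,
    fun D hD P R => ell_sub_single_single hx hsep hR hD P R⟩
  exact Fermat.Agent.S37.Diff.CanonicalCount.ell_canonical hx hsep hR

end Fermat.Agent.S17.RR.X0
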