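import Mathlib
import Fermat.Agent.S17.RR.RiemannRoch

/-!
# PROJECT H (S17), Riemann–Roch stock: positive genus and the canonical system

Setting of `S17/RR/RiemannRoch.lean`, `Kd := canDiv hx hsep`, genus `g ≥ 1`.

* `ell_single_eq_one`       : `l(P) = 1` for every place `P` (no function with one simple pole);
* `ell_canDiv_sub_single`   : `l(Kd - P) + 1 = g` (the canonical system is base point free);
* `exists_mem_canDiv_ord_eq`: a section of `Kd` not vanishing at `P`: `w ≠ 0`, `w ∈ L(Kd)`,
  `ord_P w = -Kd P`.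
-/

set_option autoImplicit false

namespace Fermat.Agent.S17.RR

open AlgebraicCurve IntermediateField
  Fermat.Agent.S24.FF Fermat.Agent.S24.Ord
  Fermat.Agent.S18.A Fermat.Agent.S37.Diff.OrdBounds

universe u w

variable {K : Type w} {F : Type u} [Field K] [Field F] [Algebra K F]

local notation "ℓ" => Fermat.Agent.S18.NonSpecial.ell

/-- powers of a function with a simple pole at `P` and no other pole -/
theorem pow_mem_of_mem_single {P : Place K F} {f : F}
    (hf : f ∈ riemannRochSpace (Finsupp.single P (1 : ℤ))) (n : ℕ) :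
    f ^ n ∈ riemannRochSpace ((n : ℤ) • Finsupp.single P (1 : ℤ)) := by
  classical
  rcases eq_or_ne f 0 with rfl | hf0
  · rcases Nat.eq_zero_or_pos n with rfl | hn
    · rw [pow_zero, mem_riemannRochSpace_iff]
      intro v
      right
      simp
    · rw [zero_pow hn.ne']
      exact Submodule.zero_mem _
  rw [mem_riemannRochSpace_iff]
  intro v
  right
  have h1 := ((mem_riemannRochSpace_iff.mp hf) v).resolve_left hf0
  have h2 : v.ord (f ^ n) = (n : ℤ) * v.ord f := by
    have := v.ord_zpow f (n : ℤ)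
    rwa [zpow_natCast] at this
  rw [h2, Finsupp.smul_apply, smul_eq_mul]
  have hn : (0 : ℤ) ≤ n := Int.natCast_nonneg n
  nlinarith

section Main

variable [IsAlgClosed K] {x : F}

/-- **no function with exactly one simple pole in positive genus**: `l(P) = 1`. -/
theorem ell_single_eq_one [HasPrincipalDivisors K F] (hx : IsFF K x)
    (hsep : Algebra.IsSeparable K⟮x⟯ F) {g : ℕ}
    (hR : Fermat.Agent.S18.NonSpecial.RiemannHyp K F g) (hg : 1 ≤ g) (P : Place K F) :
    ℓ (Finsupp.single P (1 : ℤ)) = 1 := by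
  classical
  have hfin := hR.finite
  have hge : 1 ≤ ℓ (Finsupp.single P (1 : ℤ)) := by
    have h := Fermat.Agent.S18.NonSpecial.ell_mono (hfin (Finsupp.single P (1 : ℤ)))
      (Fermat.Agent.S18.NonSpecial.single_nonneg P)
    rwa [hR.ell_zero] at h
  by_contra hne
  -- a function `f ∈ L(P) ∖ L(0)`
  have hlt : ¬ riemannRochSpace (Finsupp.single P (1 : ℤ)) ≤ riemannRochSpace (0 : Divisor K F) := by
    intro hle
    have := hfin (0 : Divisor K F)
    have h := Submodule.finrank_mono hle
    have h0 := hR.ell_zero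
    unfold Fermat.Agent.S18.NonSpecial.ell at hne hge h0
    omega
  obtain ⟨f, hf, hf'⟩ := SetLike.not_le_iff_exists.mp hlt
  have hf1 : f ∈ riemannRochSpace ((0 : Divisor K F) + Finsupp.single P 1) := by
    rwa [zero_add]
  obtain ⟨hf0, hfP⟩ := ord_eq_of_mem_of_not_mem hf1 hf'
  rw [Finsupp.zero_apply] at hfP
  -- `l(n P) ≥ n + 1`
  have hgrow : ∀ n : ℕ, n + 1 ≤ ℓ ((n : ℤ) • Finsupp.single P (1 : ℤ)) := by
    intro n
    induction n with
    | zero =>
      rw [Nat.cast_zero, zero_smul, hR.ell_zero]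
    | succ n ih =>
      have hle : (n : ℤ) • Finsupp.single P (1 : ℤ) ≤ ((n + 1 : ℕ) : ℤ) • Finsupp.single P (1 : ℤ) := by
        rw [Finsupp.le_def]
        intro v
        rw [Finsupp.smul_apply, Finsupp.smul_apply, smul_eq_mul, smul_eq_mul]
        have h0 : (0 : ℤ) ≤ (Finsupp.single P (1 : ℤ)) v := by
          have := Finsupp.le_def.mp (Fermat.Agent.S18.NonSpecial.single_nonneg P) v
          simpa using this
        push_cast
        nlinarith
      have hmem := pow_mem_of_mem_single hf (n + 1)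
      have hnot : f ^ (n + 1) ∉ riemannRochSpace ((n : ℤ) • Finsupp.single P (1 : ℤ)) := by
        intro hmem'
        have h1 := ((mem_riemannRochSpace_iff.mp hmem') P).resolve_left (pow_ne_zero _ hf0)
        have h2 : P.ord (f ^ (n + 1)) = ((n + 1 : ℕ) : ℤ) * P.ord f := by
          have := P.ord_zpow f ((n + 1 : ℕ) : ℤ)
          rwa [zpow_natCast] at this
        rw [h2, hfP, Finsupp.smul_apply, Finsupp.single_eq_same, smul_eq_mul] at h1
        push_cast at h1
        omega
      have := Fermat.Agent.S18.NonSpecial.ell_lt_of_mem_of_not_mem (hfin _) hle hmem hnot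
      omega
  -- contradiction with Riemann–Roch in large degree
  have hdegn : ∀ n : ℕ, Divisor.degree ((n : ℤ) • Finsupp.single P (1 : ℤ)) = n := by
    intro n
    rw [map_zsmul, Divisor.degree_single, hR.deg_one P]
    simp
  have h1 := ell_eq_of_le_degree hx hsep hR (D := ((2 * g : ℕ) : ℤ) • Finsupp.single P (1 : ℤ))
    (by rw [hdegn]; push_cast; omega)
  rw [hdegn] at h1
  have h2 := hgrow (2 * g)
  have h3 : ((2 * g + 1 : ℕ) : ℤ) ≤ (ℓ (((2 * g : ℕ) : ℤ) • Finsupp.single P (1 : ℤ)) : ℤ) := by
    exact_mod_cast h2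
  push_cast at h1 h3
  omega

/-- **the canonical system is base point free** (`g ≥ 1`): `l(Kd - P) + 1 = g`. -/
theorem ell_canDiv_sub_single [HasPrincipalDivisors K F] (hx : IsFF K x)
    (hsep : Algebra.IsSeparable K⟮x⟯ F) {g : ℕ}
    (hR : Fermat.Agent.S18.NonSpecial.RiemannHyp K F g) (hg : 1 ≤ g) (P : Place K F) :
    ℓ (canDiv hx hsep - Finsupp.single P 1) + 1 = g := by
  have h1 := ell_canDiv_sub hx hsep hR (Finsupp.single P 1)
  rw [ell_single_eq_one hx hsep hR hg P, Divisor.degree_single, hR.deg_one P] at h1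
  push_cast at h1
  have : ((ℓ (canDiv hx hsep - Finsupp.single P 1) : ℕ) : ℤ) + 1 = (g : ℤ) := by omega
  exact_mod_cast this

/-- a section of the canonical divisor which does not vanish at `P` (`g ≥ 1`). -/
theorem exists_mem_canDiv_ord_eq [HasPrincipalDivisors K F] (hx : IsFF K x)
    (hsep : Algebra.IsSeparable K⟮x⟯ F) {g : ℕ}
    (hR : Fermat.Agent.S18.NonSpecial.RiemannHyp K F g) (hg : 1 ≤ g) (P : Place K F) :
    ∃ w : F, w ≠ 0 ∧ w ∈ riemannRochSpace (canDiv hx hsep) ∧
      P.ord w = -(canDiv hx hsep) P := by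
  classical
  have hfin := hR.finite
  have h1 := ell_canDiv_sub_single hx hsep hR hg P
  have h2 : ℓ (canDiv hx hsep) = g :=
    Fermat.Agent.S37.Diff.CanonicalCount.ell_canonical hx hsep hR
  have hnle : ¬ riemannRochSpace (canDiv hx hsep) ≤
      riemannRochSpace (canDiv hx hsep - Finsupp.single P 1) := by
    intro hle
    have := hfin (canDiv hx hsep - Finsupp.single P 1)
    have h := Submodule.finrank_mono hle
    unfold Fermat.Agent.S18.NonSpecial.ell at h1 h2
    omega
  obtain ⟨w, hw, hw'⟩ := SetLike.not_le_iff_exists.mp hnle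
  have hw1 : w ∈ riemannRochSpace ((canDiv hx hsep - Finsupp.single P 1) + Finsupp.single P 1) := by
    rwa [sub_add_cancel]
  obtain ⟨hw0, hwP⟩ := ord_eq_of_mem_of_not_mem hw1 hw'
  refine ⟨w, hw0, hw, ?_⟩
  rw [hwP, Finsupp.sub_apply, Finsupp.single_eq_same]
  ring

end Main

end Fermat.Agent.S17.RR
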