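import Mathlib
import Fermat.Agent.S17.RR.Canonical

/-!
# PROJECT H (S17), Riemann–Roch stock: sections avoiding finitely many points

Divisor level of B.7 (choice of the auxiliary linear forms), B.8 (i), (ii) (the fixed data `EE`,
`G_E1`, `G_E2`, `TT`) and B.13 (the functions `s_0 .. s_g`) of the master text.

`k0` is an INFINITE field acting on `F` through `K` (`k0 = ℚ` and `K = ℚ̄` later; `k0 = K` is
allowed), `U0` a `k0`-subspace of `L(D)` spanning `L(D)` over `K` (the rational form of `L(D)` for a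
Galois stable `D`; the file only takes `U0` and "`U0` spans" as hypotheses).

* (Av0) `exists_mem_forall_notMem_core`, `exists_mem_forall_notMem`: a `k0`-form `U0` of a
  `K`-space `U` is not covered by finitely many `K`-subspaces not containing `U`
  (Mathlib `Subspace.biUnion_ne_univ_of_top_notMem`);
* `zmult D f P = ord_P f + D P` : the multiplicity at `P` of the zero divisor `Z(f) = div f + D`
  of a section `f` of `L(D)`; `zmult_nonneg`, `mem_sub_single_iff`, `zmult_eq_zero_iff`,
  `finite_zmult_ne_zero`, `exists_zeroDivisor`, `exists_zmult_pos`;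
* (Av1), generic: `exists_mem_zmult_eq_zero` (one member of `U0` whose zero divisor avoids a finite
  set `S`, for `D` base point free at the points of `S`);
* (Av3), generic: `exists_family` (`m` members of `U0` with pairwise disjoint zero divisors, all
  avoiding `S`), `exists_family_places` (with one zero `Q i` of each member: `m` distinct places off
  `S`), `exists_family_divisors` (with the zero divisors `E i` as divisors: effective, of degree
  `deg D`, `E i - D` principal, off `S`, pairwise disjoint supports);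
* base point freeness: `bpf_of_ell_lt`, `ell_lt_of_isPrincipal_sub` (invariance under linear
  equivalence), `bpf_of_le_degree` (`deg D ≥ 2g`), `bpf_canDiv`, `bpf_of_linEquiv_canDiv`;
  `isPrincipal_sub_sub` (`E ∼ A - C` gives `A - E ∼ C`);
* the instances in the Riemann–Roch frame (`hx hsep hR` as in `S17/RR/RiemannRoch.lean`):
  (Av1)/(Av3) `exists_family_of_le_degree`, `exists_family_divisors_of_le_degree`,
  `exists_family_places_of_le_degree`; (Av2) `exists_family_canDiv`,
  `exists_family_of_linEquiv_canDiv`, `exists_family_divisors_of_linEquiv_canDiv`;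
  (Av4) `exists_mem_sub`, `exists_mem_sub_single` (a section of `L(D - A)`, `deg (D - A) ≥ 2g`,
  whose residual divisor `Z - A` avoids `S`), `exists_mem_sub_self`, `exists_mem_sub_single_self`
  (`k0 = K`), `exists_two_families_sub`, `exists_two_families` (B.7: two choices of sections through
  `A k` resp. `R k` such that every place is off all residual divisors of one of the two choices);
* coefficient form: `mem_of_mem_span_range`, `le_span_of_le_span_range` (the `k0`-span of a family
  spanning `L(D)` over `K` is a `k0`-form), `exists_coeff_family_of_le_degree`.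
-/

set_option autoImplicit false

namespace Fermat.Agent.S17.RR.Avoid

open AlgebraicCurve IntermediateField
  Fermat.Agent.S24.FF Fermat.Agent.S24.Ord
  Fermat.Agent.S18.A Fermat.Agent.S37.Diff.OrdBounds

local notation "ℓ" => Fermat.Agent.S18.NonSpecial.ell

/-! ### (Av0) linear algebra -/

section LinAlg

variable {k0 : Type*} [Field k0] [Infinite k0]

/-- (Av0), core: a subspace `U0` of a vector space over an infinite field is not covered by
finitely many subspaces none of which contains `U0`. -/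
theorem exists_mem_forall_notMem_core {V : Type*} [AddCommGroup V] [Module k0 V] {ι : Type*}
    (s : Finset ι) (U0 : Submodule k0 V) (p : ι → Submodule k0 V)
    (hp : ∀ i ∈ s, ∃ u ∈ U0, u ∉ p i) : ∃ u ∈ U0, ∀ i ∈ s, u ∉ p i := by
  classical
  let q : ι → Submodule k0 U0 := fun i => (p i).comap U0.subtype
  have htop : (⊤ : Submodule k0 U0) ∉ s.image q := by
    intro h
    obtain ⟨i, hi, hqi⟩ := Finset.mem_image.mp h
    obtain ⟨u, hu, hup⟩ := hp i hi
    apply hup
    have hmem : (⟨u, hu⟩ : U0) ∈ q i := by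
      rw [hqi]
      exact Submodule.mem_top
    exact hmem
  have hne := Subspace.biUnion_ne_univ_of_top_notMem htop
  obtain ⟨u, hu⟩ := (Set.ne_univ_iff_exists_notMem _).mp hne
  refine ⟨u.1, u.2, fun i hi hmem => hu ?_⟩
  simp only [Set.mem_iUnion]
  exact ⟨q i, Finset.mem_image_of_mem q hi, hmem⟩

/-- (Av0): `U` a `K`-subspace, `U0` a `k0`-subspace spanning `U` over `K`, `W i` finitely many
`K`-subspaces not containing `U`: some element of `U0` lies outside every `W i`. -/
theorem exists_mem_forall_notMem {K V : Type*} [Field K] [AddCommGroup V] [Module K V]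
    [Module k0 V] [SMul k0 K] [IsScalarTower k0 K V] {ι : Type*} (s : Finset ι)
    (U : Submodule K V) (U0 : Submodule k0 V) (hspan : U ≤ Submodule.span K (U0 : Set V))
    (W : ι → Submodule K V) (hW : ∀ i ∈ s, ¬ U ≤ W i) : ∃ u ∈ U0, ∀ i ∈ s, u ∉ W i := by
  refine exists_mem_forall_notMem_core s U0 (fun i => (W i).restrictScalars k0) fun i hi => ?_
  by_contra hcon
  push Not at hcon
  apply hW i hi
  refine hspan.trans (Submodule.span_le.mpr fun u hu => ?_)
  exact hcon u hu

end LinAlg

universe u w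

variable {K : Type w} {F : Type u} [Field K] [Field F] [Algebra K F]

/-! ### the zero divisor of a section -/

/-- the multiplicity at `P` of the zero divisor `Z(f) = div f + D` of a section `f` of `L(D)` -/
noncomputable def zmult (D : Divisor K F) (f : F) (P : Place K F) : ℤ := P.ord f + D P

theorem zmult_nonneg {D : Divisor K F} {f : F} (hf0 : f ≠ 0) (hf : f ∈ riemannRochSpace D)
    (P : Place K F) : 0 ≤ zmult D f P := by
  have h := ((mem_riemannRochSpace_iff.mp hf) P).resolve_left hf0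
  unfold zmult
  omega

/-- `f ∈ L(D - P)` iff `P` is a zero of the section `f` of `L(D)` -/
theorem mem_sub_single_iff {D : Divisor K F} {f : F} (hf0 : f ≠ 0) (hf : f ∈ riemannRochSpace D)
    (P : Place K F) : f ∈ riemannRochSpace (D - Finsupp.single P 1) ↔ 0 < zmult D f P := by
  classical
  unfold zmult
  constructor
  · intro h
    have h1 := ((mem_riemannRochSpace_iff.mp h) P).resolve_left hf0
    rw [Finsupp.sub_apply, Finsupp.single_eq_same] at h1
    omega
  · intro h
    rw [mem_riemannRochSpace_iff]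
    intro v
    right
    by_cases hv : v = P
    · subst hv
      rw [Finsupp.sub_apply, Finsupp.single_eq_same]
      omega
    · have h2 := ((mem_riemannRochSpace_iff.mp hf) v).resolve_left hf0
      rw [Finsupp.sub_apply, Finsupp.single_apply, if_neg (Ne.symm hv), sub_zero]
      exact h2

theorem zmult_eq_zero_iff {D : Divisor K F} {f : F} (hf0 : f ≠ 0) (hf : f ∈ riemannRochSpace D)
    (P : Place K F) : zmult D f P = 0 ↔ f ∉ riemannRochSpace (D - Finsupp.single P 1) := by
  rw [mem_sub_single_iff hf0 hf P]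
  have := zmult_nonneg hf0 hf P
  omega

/-- the zero divisor as a divisor: `Z = div f + D`, of degree `deg D` -/
theorem exists_zeroDivisor [HasPrincipalDivisors K F] (D : Divisor K F) {f : F} (hf0 : f ≠ 0) :
    ∃ Z : Divisor K F, (∀ P, Z P = zmult D f P) ∧ Divisor.degree Z = Divisor.degree D := by
  obtain ⟨E, hE, hE0⟩ := HasPrincipalDivisors.exists_divisor (K := K) f hf0
  refine ⟨E + D, fun P => ?_, ?_⟩
  · rw [Finsupp.add_apply, hE P]
    rfl
  · rw [map_add, hE0, zero_add]

theorem finite_zmult_ne_zero [HasPrincipalDivisors K F] (D : Divisor K F) {f : F} (hf0 : f ≠ 0) :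
    {P : Place K F | zmult D f P ≠ 0}.Finite := by
  obtain ⟨Z, hZ, -⟩ := exists_zeroDivisor D hf0
  refine Z.support.finite_toSet.subset fun P hP => ?_
  rw [Finset.mem_coe, Finsupp.mem_support_iff, hZ P]
  exact hP

/-- a section of a divisor of positive degree has a zero -/
theorem exists_zmult_pos [HasPrincipalDivisors K F] {D : Divisor K F} {f : F} (hf0 : f ≠ 0)
    (hf : f ∈ riemannRochSpace D) (hD : 0 < Divisor.degree D) : ∃ P, 0 < zmult D f P := by
  obtain ⟨Z, hZ, hdeg⟩ := exists_zeroDivisor D hf0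
  by_contra hcon
  push Not at hcon
  have hZ0 : Z = 0 := by
    ext P
    have h1 := zmult_nonneg hf0 hf P
    have h2 := hcon P
    rw [hZ P, Finsupp.zero_apply]
    omega
  rw [hZ0, map_zero] at hdeg
  omega

/-! ### base point freeness -/

theorem bpf_of_ell_lt {D : Divisor K F} {P : Place K F}
    (h : ℓ (D - Finsupp.single P 1) < ℓ D) :
    ∃ f ∈ riemannRochSpace D, f ∉ riemannRochSpace (D - Finsupp.single P 1) := by
  by_contra hcon
  push Not at hcon
  have hle : riemannRochSpace D ≤ riemannRochSpace (D - Finsupp.single P 1) := hcon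
  have hge : riemannRochSpace (D - Finsupp.single P 1) ≤ riemannRochSpace D :=
    Fermat.Agent.S18.NonSpecial.riemannRochSpace_mono
      (sub_le_self D (Fermat.Agent.S18.NonSpecial.single_nonneg P))
  have heq : riemannRochSpace (D - Finsupp.single P 1) = riemannRochSpace D := le_antisymm hge hle
  unfold Fermat.Agent.S18.NonSpecial.ell at h
  rw [heq] at h
  exact lt_irrefl _ h

/-- base point freeness is invariant under linear equivalence -/
theorem ell_lt_of_isPrincipal_sub {D D' : Divisor K F} (hDD' : Divisor.IsPrincipal (D' - D))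
    {P : Place K F} (h : ℓ (D - Finsupp.single P 1) < ℓ D) :
    ℓ (D' - Finsupp.single P 1) < ℓ D' := by
  obtain ⟨t, ht0, ht⟩ := hDD'
  have h1 : ℓ D' = ℓ D := by
    have := Fermat.Agent.S18.A.Riemann.ell_add_div (D := D) (E := D' - D) ht0 ht
    rw [add_sub_cancel] at this
    exact this
  have h2 : ℓ (D' - Finsupp.single P 1) = ℓ (D - Finsupp.single P 1) := by
    have := Fermat.Agent.S18.A.Riemann.ell_add_div (D := D - Finsupp.single P 1) (E := D' - D)
      ht0 ht
    have hrw : D - Finsupp.single P 1 + (D' - D) = D' - Finsupp.single P 1 := by abel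
    rw [hrw] at this
    exact this
  rw [h1, h2]
  exact h

/-! ### (Av1), (Av3): the generic statements -/

section Generic

variable {k0 : Type*} [Field k0] [Infinite k0] [Module k0 F] [SMul k0 K] [IsScalarTower k0 K F]

/-- (Av1), generic form: `U0` a `k0`-form of `L(D)`, `D` base point free at the points of the
finite set `S`: some nonzero member of `U0` has a zero divisor avoiding `S`. -/
theorem exists_mem_zmult_eq_zero {D : Divisor K F} (U0 : Submodule k0 F)
    (hU0 : ∀ u ∈ U0, u ∈ riemannRochSpace D)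
    (hspan : riemannRochSpace D ≤ Submodule.span K (U0 : Set F))
    (hne : ∃ f ∈ riemannRochSpace D, f ≠ 0) (S : Finset (Place K F))
    (hbpf : ∀ P ∈ S, ∃ f ∈ riemannRochSpace D, f ∉ riemannRochSpace (D - Finsupp.single P 1)) :
    ∃ f ∈ U0, f ≠ 0 ∧ ∀ P ∈ S, zmult D f P = 0 := by
  classical
  let W : Option (Place K F) → Submodule K F := fun o =>
    o.elim ⊥ fun P => riemannRochSpace (D - Finsupp.single P 1)
  have hW : ∀ o ∈ Finset.insertNone S, ¬ riemannRochSpace D ≤ W o := by
    intro o ho hle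
    cases o with
    | none =>
      obtain ⟨f, hf, hf0⟩ := hne
      exact hf0 ((Submodule.mem_bot K).mp (hle hf))
    | some P =>
      obtain ⟨f, hf, hf'⟩ := hbpf P (Finset.some_mem_insertNone.mp ho)
      exact hf' (hle hf)
  obtain ⟨f, hfU, hf⟩ := exists_mem_forall_notMem (Finset.insertNone S) (riemannRochSpace D) U0
    hspan W hW
  have hf0 : f ≠ 0 := fun h0 =>
    hf none Finset.none_mem_insertNone ((Submodule.mem_bot K).mpr h0)
  refine ⟨f, hfU, hf0, fun P hP => ?_⟩
  rw [zmult_eq_zero_iff hf0 (hU0 f hfU) P]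
  exact hf (some P) (Finset.some_mem_insertNone.mpr hP)

/-- (Av3), generic form: for each `m`, there are `m` nonzero members of `U0` whose zero divisors
avoid `S` and are pairwise disjoint. -/
theorem exists_family [HasPrincipalDivisors K F] {D : Divisor K F} (U0 : Submodule k0 F)
    (hU0 : ∀ u ∈ U0, u ∈ riemannRochSpace D)
    (hspan : riemannRochSpace D ≤ Submodule.span K (U0 : Set F))
    (hne : ∃ f ∈ riemannRochSpace D, f ≠ 0)
    (hbpf : ∀ P, ∃ f ∈ riemannRochSpace D, f ∉ riemannRochSpace (D - Finsupp.single P 1))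
    (S : Finset (Place K F)) (m : ℕ) :
    ∃ f : Fin m → F, (∀ i, f i ∈ U0 ∧ f i ≠ 0) ∧ (∀ i, ∀ P ∈ S, zmult D (f i) P = 0) ∧
      ∀ i j, i ≠ j → ∀ P, zmult D (f i) P = 0 ∨ zmult D (f j) P = 0 := by
  classical
  induction m with
  | zero => exact ⟨Fin.elim0, fun i => i.elim0, fun i => i.elim0, fun i => i.elim0⟩
  | succ m ih =>
    obtain ⟨f, hf1, hf2, hf3⟩ := ih
    let T : Finset (Place K F) :=
      Finset.univ.biUnion fun i : Fin m => (finite_zmult_ne_zero D (hf1 i).2).toFinset
    have hT : ∀ i P, zmult D (f i) P ≠ 0 → P ∈ T := by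
      intro i P hP
      refine Finset.mem_biUnion.mpr ⟨i, Finset.mem_univ i, ?_⟩
      rw [Set.Finite.mem_toFinset]
      exact hP
    obtain ⟨g, hgU, hg0, hg⟩ := exists_mem_zmult_eq_zero U0 hU0 hspan hne (S ∪ T)
      fun P _ => hbpf P
    refine ⟨Fin.cons g f, ?_, ?_, ?_⟩
    · intro i
      refine Fin.cases ?_ (fun i => ?_) i
      · rw [Fin.cons_zero]
        exact ⟨hgU, hg0⟩
      · rw [Fin.cons_succ]
        exact hf1 i
    · intro i
      refine Fin.cases ?_ (fun i => ?_) i
      · rw [Fin.cons_zero]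
        exact fun P hP => hg P (Finset.mem_union_left T hP)
      · rw [Fin.cons_succ]
        exact hf2 i
    · intro i j
      refine Fin.cases ?_ (fun i => ?_) i <;> refine Fin.cases ?_ (fun j => ?_) j
      · intro h
        exact absurd rfl h
      · intro _ P
        rw [Fin.cons_zero, Fin.cons_succ]
        by_cases hP : zmult D (f j) P = 0
        · exact Or.inr hP
        · exact Or.inl (hg P (Finset.mem_union_right S (hT j P hP)))
      · intro _ P
        rw [Fin.cons_zero, Fin.cons_succ]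
        by_cases hP : zmult D (f i) P = 0
        · exact Or.inl hP
        · exact Or.inr (hg P (Finset.mem_union_right S (hT i P hP)))
      · intro hij P
        rw [Fin.cons_succ, Fin.cons_succ]
        exact hf3 i j (fun h => hij (congrArg Fin.succ h)) P

/-- (Av3) with one zero of each member: `m` distinct places off `S` (for the set `TT` of B.8) -/
theorem exists_family_places [HasPrincipalDivisors K F] {D : Divisor K F} (U0 : Submodule k0 F)
    (hU0 : ∀ u ∈ U0, u ∈ riemannRochSpace D)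
    (hspan : riemannRochSpace D ≤ Submodule.span K (U0 : Set F))
    (hne : ∃ f ∈ riemannRochSpace D, f ≠ 0)
    (hbpf : ∀ P, ∃ f ∈ riemannRochSpace D, f ∉ riemannRochSpace (D - Finsupp.single P 1))
    (hD : 0 < Divisor.degree D) (S : Finset (Place K F)) (m : ℕ) :
    ∃ (f : Fin m → F) (Q : Fin m → Place K F), (∀ i, f i ∈ U0 ∧ f i ≠ 0) ∧
      (∀ i, ∀ P ∈ S, zmult D (f i) P = 0) ∧
      (∀ i j, i ≠ j → ∀ P, zmult D (f i) P = 0 ∨ zmult D (f j) P = 0) ∧
      (∀ i, 0 < zmult D (f i) (Q i)) ∧ Function.Injective Q ∧ ∀ i, Q i ∉ S := by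
  obtain ⟨f, hf1, hf2, hf3⟩ := exists_family U0 hU0 hspan hne hbpf S m
  have hQ : ∀ i, ∃ P, 0 < zmult D (f i) P := fun i =>
    exists_zmult_pos (hf1 i).2 (hU0 _ (hf1 i).1) hD
  choose Q hQ using hQ
  refine ⟨f, Q, hf1, hf2, hf3, hQ, ?_, ?_⟩
  · intro i j hij
    by_contra hne'
    have h1 := hQ i
    have h2 := hQ j
    rw [← hij] at h2
    rcases hf3 i j hne' (Q i) with h | h <;> omega
  · intro i hi
    have h1 := hQ i
    have h2 := hf2 i (Q i) hi
    omega

/-- (Av3) with the zero divisors `E i = div (f i) + D` as divisors: effective, of degree `deg D`,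
linearly equivalent to `D`, off `S`, with pairwise disjoint supports (B.8 (i): the set `EE`) -/
theorem exists_family_divisors [HasPrincipalDivisors K F] {D : Divisor K F} (U0 : Submodule k0 F)
    (hU0 : ∀ u ∈ U0, u ∈ riemannRochSpace D)
    (hspan : riemannRochSpace D ≤ Submodule.span K (U0 : Set F))
    (hne : ∃ f ∈ riemannRochSpace D, f ≠ 0)
    (hbpf : ∀ P, ∃ f ∈ riemannRochSpace D, f ∉ riemannRochSpace (D - Finsupp.single P 1))
    (S : Finset (Place K F)) (m : ℕ) :
    ∃ (f : Fin m → F) (E : Fin m → Divisor K F), (∀ i, f i ∈ U0 ∧ f i ≠ 0) ∧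
      (∀ i P, E i P = zmult D (f i) P) ∧ (∀ i, 0 ≤ E i) ∧
      (∀ i, Divisor.degree (E i) = Divisor.degree D) ∧
      (∀ i, Divisor.IsPrincipal (E i - D)) ∧
      (∀ i, ∀ P ∈ S, E i P = 0) ∧
      ∀ i j, i ≠ j → Disjoint (E i).support (E j).support := by
  obtain ⟨f, hf1, hf2, hf3⟩ := exists_family U0 hU0 hspan hne hbpf S m
  have hE : ∀ i, ∃ Z : Divisor K F, (∀ P, Z P = zmult D (f i) P) ∧
      Divisor.degree Z = Divisor.degree D := fun i => exists_zeroDivisor D (hf1 i).2
  choose E hE hEdeg using hE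
  refine ⟨f, E, hf1, hE, fun i => ?_, hEdeg, fun i => ?_, fun i P hP => ?_, fun i j hij => ?_⟩
  · rw [Finsupp.le_def]
    intro P
    rw [hE i P, Finsupp.zero_apply]
    exact zmult_nonneg (hf1 i).2 (hU0 _ (hf1 i).1) P
  · refine ⟨f i, (hf1 i).2, fun v => ?_⟩
    rw [Finsupp.sub_apply, hE i v]
    unfold zmult
    ring
  · rw [hE i P]
    exact hf2 i P hP
  · rw [Finset.disjoint_left]
    intro P hPi hPj
    rw [Finsupp.mem_support_iff, hE] at hPi hPj
    rcases hf3 i j hij P with h | h
    · exact hPi h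
    · exact hPj h

end Generic

/-- if `E` is linearly equivalent to `A - C` then `A - E` is linearly equivalent to `C`
(B.8: `E ∈ |δ∞ - Kd|` gives `δ∞ - E ∼ Kd`) -/
theorem isPrincipal_sub_sub {A C E : Divisor K F} (h : Divisor.IsPrincipal (E - (A - C))) :
    Divisor.IsPrincipal (A - E - C) := by
  have h1 : E - (A - C) ∈ Divisor.principal (K := K) (F := F) := h
  have h2 := (Divisor.principal (K := K) (F := F)).neg_mem h1
  have h3 : -(E - (A - C)) = A - E - C := by abel
  rw [h3] at h2
  exact h2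


/-! ### the instances in the Riemann–Roch frame -/

theorem zmult_sub (D A : Divisor K F) (f : F) (P : Place K F) :
    zmult (D - A) f P = zmult D f P - A P := by
  unfold zmult
  rw [Finsupp.sub_apply]
  ring

theorem zmult_sub_single [DecidableEq (Place K F)] (D : Divisor K F) (R : Place K F) (f : F)
    (P : Place K F) :
    zmult (D - Finsupp.single R 1) f P = zmult D f P - if P = R then 1 else 0 := by
  unfold zmult
  rw [Finsupp.sub_apply, Finsupp.single_apply]
  by_cases h : P = R
  · rw [if_pos h.symm, if_pos h]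
    ring
  · rw [if_neg (Ne.symm h), if_neg h]
    ring

theorem exists_ne_zero_of_bpf {D : Divisor K F} {P : Place K F}
    (h : ∃ f ∈ riemannRochSpace D, f ∉ riemannRochSpace (D - Finsupp.single P 1)) :
    ∃ f ∈ riemannRochSpace D, f ≠ 0 := by
  obtain ⟨f, hf, hf'⟩ := h
  exact ⟨f, hf, fun h0 => hf' (h0 ▸ Submodule.zero_mem _)⟩

/-! ### bridge: the `k0`-span of a family spanning `L(D)` over `K` is a `k0`-form of `L(D)` -/

theorem mem_of_mem_span_range {k0 : Type*} [Semiring k0] [Module k0 F] [SMul k0 K]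
    [IsScalarTower k0 K F] {ι : Type*} (v : ι → F) {D : Divisor K F}
    (hv : ∀ j, v j ∈ riemannRochSpace D) :
    ∀ u ∈ Submodule.span k0 (Set.range v), u ∈ riemannRochSpace D := by
  intro u hu
  have hle : Submodule.span k0 (Set.range v) ≤ (riemannRochSpace D).restrictScalars k0 :=
    Submodule.span_le.mpr (by rintro _ ⟨j, rfl⟩; exact hv j)
  exact hle hu

theorem le_span_of_le_span_range {k0 : Type*} [Semiring k0] [Module k0 F] {ι : Type*} (v : ι → F)
    {D : Divisor K F} (hspan : riemannRochSpace D ≤ Submodule.span K (Set.range v)) :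
    riemannRochSpace D ≤
      Submodule.span K ((Submodule.span k0 (Set.range v) : Submodule k0 F) : Set F) :=
  hspan.trans (Submodule.span_mono Submodule.subset_span)

section Frame

variable [IsAlgClosed K] [HasPrincipalDivisors K F] {x : F}

/-- a divisor of degree `≥ 2g` is base point free -/
theorem bpf_of_le_degree (hx : IsFF K x) (hsep : Algebra.IsSeparable K⟮x⟯ F) {g : ℕ}
    (hR : Fermat.Agent.S18.NonSpecial.RiemannHyp K F g) {D : Divisor K F}
    (hD : 2 * (g : ℤ) ≤ Divisor.degree D) (P : Place K F) :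
    ∃ f ∈ riemannRochSpace D, f ∉ riemannRochSpace (D - Finsupp.single P 1) :=
  bpf_of_ell_lt (by have := ell_sub_single hx hsep hR hD P; omega)

/-- the canonical divisor is base point free (`g ≥ 1`) -/
theorem ell_canDiv_sub_single_lt (hx : IsFF K x) (hsep : Algebra.IsSeparable K⟮x⟯ F) {g : ℕ}
    (hR : Fermat.Agent.S18.NonSpecial.RiemannHyp K F g) (hg : 1 ≤ g) (P : Place K F) :
    ℓ (canDiv hx hsep - Finsupp.single P 1) < ℓ (canDiv hx hsep) := by
  have h1 := ell_canDiv_sub_single hx hsep hR hg P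
  have h2 : ℓ (canDiv hx hsep) = g :=
    Fermat.Agent.S37.Diff.CanonicalCount.ell_canonical hx hsep hR
  omega

/-- every divisor linearly equivalent to the canonical divisor is base point free (`g ≥ 1`) -/
theorem bpf_of_linEquiv_canDiv (hx : IsFF K x) (hsep : Algebra.IsSeparable K⟮x⟯ F) {g : ℕ}
    (hR : Fermat.Agent.S18.NonSpecial.RiemannHyp K F g) (hg : 1 ≤ g) {D : Divisor K F}
    (hD : Divisor.IsPrincipal (D - canDiv hx hsep)) (P : Place K F) :
    ∃ f ∈ riemannRochSpace D, f ∉ riemannRochSpace (D - Finsupp.single P 1) :=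
  bpf_of_ell_lt (ell_lt_of_isPrincipal_sub hD (ell_canDiv_sub_single_lt hx hsep hR hg P))

theorem bpf_canDiv (hx : IsFF K x) (hsep : Algebra.IsSeparable K⟮x⟯ F) {g : ℕ}
    (hR : Fermat.Agent.S18.NonSpecial.RiemannHyp K F g) (hg : 1 ≤ g) (P : Place K F) :
    ∃ f ∈ riemannRochSpace (canDiv hx hsep),
      f ∉ riemannRochSpace (canDiv hx hsep - Finsupp.single P 1) :=
  bpf_of_ell_lt (ell_canDiv_sub_single_lt hx hsep hR hg P)

section Rational

variable {k0 : Type*} [Field k0] [Infinite k0] [Module k0 F] [SMul k0 K] [IsScalarTower k0 K F]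

/-- (Av1) + (Av3): `deg D ≥ 2g`, `U0` a `k0`-form of `L(D)`: `m` nonzero members of `U0` whose zero
divisors avoid `S` and are pairwise disjoint. -/
theorem exists_family_of_le_degree (hx : IsFF K x) (hsep : Algebra.IsSeparable K⟮x⟯ F) {g : ℕ}
    (hR : Fermat.Agent.S18.NonSpecial.RiemannHyp K F g) {D : Divisor K F}
    (hD : 2 * (g : ℤ) ≤ Divisor.degree D) (U0 : Submodule k0 F)
    (hU0 : ∀ u ∈ U0, u ∈ riemannRochSpace D)
    (hspan : riemannRochSpace D ≤ Submodule.span K (U0 : Set F))
    (S : Finset (Place K F)) (m : ℕ) :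
    ∃ f : Fin m → F, (∀ i, f i ∈ U0 ∧ f i ≠ 0) ∧ (∀ i, ∀ P ∈ S, zmult D (f i) P = 0) ∧
      ∀ i j, i ≠ j → ∀ P, zmult D (f i) P = 0 ∨ zmult D (f j) P = 0 := by
  have hbpf := bpf_of_le_degree hx hsep hR hD
  obtain ⟨P0⟩ := hR.infinite.nonempty
  exact exists_family U0 hU0 hspan (exists_ne_zero_of_bpf (hbpf P0)) hbpf S m

/-- (Av3) with divisors, `deg D ≥ 2g` (B.8 (i): `EE`, with `D = δ∞ - Kd`; B.13: `Z_0 .. Z_g`) -/
theorem exists_family_divisors_of_le_degree (hx : IsFF K x) (hsep : Algebra.IsSeparable K⟮x⟯ F)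
    {g : ℕ} (hR : Fermat.Agent.S18.NonSpecial.RiemannHyp K F g) {D : Divisor K F}
    (hD : 2 * (g : ℤ) ≤ Divisor.degree D) (U0 : Submodule k0 F)
    (hU0 : ∀ u ∈ U0, u ∈ riemannRochSpace D)
    (hspan : riemannRochSpace D ≤ Submodule.span K (U0 : Set F))
    (S : Finset (Place K F)) (m : ℕ) :
    ∃ (f : Fin m → F) (E : Fin m → Divisor K F), (∀ i, f i ∈ U0 ∧ f i ≠ 0) ∧
      (∀ i P, E i P = zmult D (f i) P) ∧ (∀ i, 0 ≤ E i) ∧
      (∀ i, Divisor.degree (E i) = Divisor.degree D) ∧
      (∀ i, Divisor.IsPrincipal (E i - D)) ∧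
      (∀ i, ∀ P ∈ S, E i P = 0) ∧
      ∀ i j, i ≠ j → Disjoint (E i).support (E j).support := by
  have hbpf := bpf_of_le_degree hx hsep hR hD
  obtain ⟨P0⟩ := hR.infinite.nonempty
  exact exists_family_divisors U0 hU0 hspan (exists_ne_zero_of_bpf (hbpf P0)) hbpf S m

/-- (Av2) + (Av3) with divisors, `D` linearly equivalent to the canonical divisor, `g ≥ 1`
(B.8 (i): `G_E1`, `G_E2` with `D = δ∞ - E`) -/
theorem exists_family_divisors_of_linEquiv_canDiv (hx : IsFF K x)
    (hsep : Algebra.IsSeparable K⟮x⟯ F) {g : ℕ}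
    (hR : Fermat.Agent.S18.NonSpecial.RiemannHyp K F g) (hg : 1 ≤ g) {D : Divisor K F}
    (hD : Divisor.IsPrincipal (D - canDiv hx hsep)) (U0 : Submodule k0 F)
    (hU0 : ∀ u ∈ U0, u ∈ riemannRochSpace D)
    (hspan : riemannRochSpace D ≤ Submodule.span K (U0 : Set F))
    (S : Finset (Place K F)) (m : ℕ) :
    ∃ (f : Fin m → F) (E : Fin m → Divisor K F), (∀ i, f i ∈ U0 ∧ f i ≠ 0) ∧
      (∀ i P, E i P = zmult D (f i) P) ∧ (∀ i, 0 ≤ E i) ∧
      (∀ i, Divisor.degree (E i) = Divisor.degree D) ∧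
      (∀ i, Divisor.IsPrincipal (E i - D)) ∧
      (∀ i, ∀ P ∈ S, E i P = 0) ∧
      ∀ i j, i ≠ j → Disjoint (E i).support (E j).support := by
  have hbpf := bpf_of_linEquiv_canDiv hx hsep hR hg hD
  obtain ⟨P0⟩ := hR.infinite.nonempty
  exact exists_family_divisors U0 hU0 hspan (exists_ne_zero_of_bpf (hbpf P0)) hbpf S m

/-- (Av3) with distinct zeros `Q i` off `S` (B.8 (ii): the set `TT`) -/
theorem exists_family_places_of_le_degree (hx : IsFF K x) (hsep : Algebra.IsSeparable K⟮x⟯ F)
    {g : ℕ} (hR : Fermat.Agent.S18.NonSpecial.RiemannHyp K F g) {D : Divisor K F}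
    (hD : 2 * (g : ℤ) ≤ Divisor.degree D) (hD1 : 0 < Divisor.degree D) (U0 : Submodule k0 F)
    (hU0 : ∀ u ∈ U0, u ∈ riemannRochSpace D)
    (hspan : riemannRochSpace D ≤ Submodule.span K (U0 : Set F))
    (S : Finset (Place K F)) (m : ℕ) :
    ∃ (f : Fin m → F) (Q : Fin m → Place K F), (∀ i, f i ∈ U0 ∧ f i ≠ 0) ∧
      (∀ i, ∀ P ∈ S, zmult D (f i) P = 0) ∧
      (∀ i j, i ≠ j → ∀ P, zmult D (f i) P = 0 ∨ zmult D (f j) P = 0) ∧
      (∀ i, 0 < zmult D (f i) (Q i)) ∧ Function.Injective Q ∧ ∀ i, Q i ∉ S := by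
  have hbpf := bpf_of_le_degree hx hsep hR hD
  obtain ⟨P0⟩ := hR.infinite.nonempty
  exact exists_family_places U0 hU0 hspan (exists_ne_zero_of_bpf (hbpf P0)) hbpf hD1 S m

/-- (Av2) + (Av3): `g ≥ 1`, `D` linearly equivalent to the canonical divisor `canDiv hx hsep`,
`U0` a `k0`-form of `L(D)`: `m` nonzero members of `U0` whose zero divisors avoid `S` and are
pairwise disjoint. -/
theorem exists_family_of_linEquiv_canDiv (hx : IsFF K x) (hsep : Algebra.IsSeparable K⟮x⟯ F)
    {g : ℕ} (hR : Fermat.Agent.S18.NonSpecial.RiemannHyp K F g) (hg : 1 ≤ g) {D : Divisor K F}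
    (hD : Divisor.IsPrincipal (D - canDiv hx hsep)) (U0 : Submodule k0 F)
    (hU0 : ∀ u ∈ U0, u ∈ riemannRochSpace D)
    (hspan : riemannRochSpace D ≤ Submodule.span K (U0 : Set F))
    (S : Finset (Place K F)) (m : ℕ) :
    ∃ f : Fin m → F, (∀ i, f i ∈ U0 ∧ f i ≠ 0) ∧ (∀ i, ∀ P ∈ S, zmult D (f i) P = 0) ∧
      ∀ i j, i ≠ j → ∀ P, zmult D (f i) P = 0 ∨ zmult D (f j) P = 0 := by
  have hbpf := bpf_of_linEquiv_canDiv hx hsep hR hg hD
  obtain ⟨P0⟩ := hR.infinite.nonempty
  exact exists_family U0 hU0 hspan (exists_ne_zero_of_bpf (hbpf P0)) hbpf S m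

/-- (Av2) + (Av3) for the canonical divisor itself -/
theorem exists_family_canDiv (hx : IsFF K x) (hsep : Algebra.IsSeparable K⟮x⟯ F)
    {g : ℕ} (hR : Fermat.Agent.S18.NonSpecial.RiemannHyp K F g) (hg : 1 ≤ g)
    (U0 : Submodule k0 F) (hU0 : ∀ u ∈ U0, u ∈ riemannRochSpace (canDiv hx hsep))
    (hspan : riemannRochSpace (canDiv hx hsep) ≤ Submodule.span K (U0 : Set F))
    (S : Finset (Place K F)) (m : ℕ) :
    ∃ f : Fin m → F, (∀ i, f i ∈ U0 ∧ f i ≠ 0) ∧
      (∀ i, ∀ P ∈ S, zmult (canDiv hx hsep) (f i) P = 0) ∧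
      ∀ i j, i ≠ j → ∀ P, zmult (canDiv hx hsep) (f i) P = 0 ∨
        zmult (canDiv hx hsep) (f j) P = 0 := by
  have hbpf := bpf_canDiv hx hsep hR hg
  obtain ⟨P0⟩ := hR.infinite.nonempty
  exact exists_family U0 hU0 hspan (exists_ne_zero_of_bpf (hbpf P0)) hbpf S m

/-- (Av4), divisor form: `A` a divisor with `deg (D - A) ≥ 2g`, `U0` a `k0`-form of `L(D - A)`: a
nonzero member of `U0` (a section of `L(D)` with `Z ≥ A`) whose residual divisor `Z - A` avoids
`S`. -/
theorem exists_mem_sub (hx : IsFF K x) (hsep : Algebra.IsSeparable K⟮x⟯ F) {g : ℕ}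
    (hR : Fermat.Agent.S18.NonSpecial.RiemannHyp K F g) {D A : Divisor K F}
    (hD : 2 * (g : ℤ) ≤ Divisor.degree (D - A)) (U0 : Submodule k0 F)
    (hU0 : ∀ u ∈ U0, u ∈ riemannRochSpace (D - A))
    (hspan : riemannRochSpace (D - A) ≤ Submodule.span K (U0 : Set F))
    (S : Finset (Place K F)) :
    ∃ f ∈ U0, f ≠ 0 ∧ ∀ P ∈ S, zmult D f P = A P := by
  have hbpf := bpf_of_le_degree hx hsep hR hD
  obtain ⟨P0⟩ := hR.infinite.nonempty
  obtain ⟨f, hfU, hf0, hf⟩ := exists_mem_zmult_eq_zero U0 hU0 hspan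
    (exists_ne_zero_of_bpf (hbpf P0)) S fun P _ => hbpf P
  refine ⟨f, hfU, hf0, fun P hP => ?_⟩
  have h := hf P hP
  rw [zmult_sub] at h
  omega

/-- (Av4): `deg D ≥ 2g + 1`, `R` a place, `U0` a `k0`-form of `L(D - R)`: a nonzero member of `U0`
(a section of `L(D)` vanishing at `R`) whose residual divisor `Z - R` avoids `S`. -/
theorem exists_mem_sub_single (hx : IsFF K x) (hsep : Algebra.IsSeparable K⟮x⟯ F) {g : ℕ}
    (hR : Fermat.Agent.S18.NonSpecial.RiemannHyp K F g) {D : Divisor K F}
    (hD : 2 * (g : ℤ) + 1 ≤ Divisor.degree D) (R : Place K F) (U0 : Submodule k0 F)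
    (hU0 : ∀ u ∈ U0, u ∈ riemannRochSpace (D - Finsupp.single R 1))
    (hspan : riemannRochSpace (D - Finsupp.single R 1) ≤ Submodule.span K (U0 : Set F))
    (S : Finset (Place K F)) [DecidableEq (Place K F)] :
    ∃ f ∈ U0, f ≠ 0 ∧ ∀ P ∈ S, zmult D f P = if P = R then 1 else 0 := by
  have hdeg : Divisor.degree (D - Finsupp.single R 1) = Divisor.degree D - 1 := by
    rw [map_sub, Divisor.degree_single, hR.deg_one R]
    simp
  have hbpf := bpf_of_le_degree hx hsep hR (D := D - Finsupp.single R 1) (by rw [hdeg]; omega)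
  obtain ⟨f, hfU, hf0, hf⟩ := exists_mem_zmult_eq_zero U0 hU0 hspan
    (exists_ne_zero_of_bpf (hbpf R)) S fun P _ => hbpf P
  refine ⟨f, hfU, hf0, fun P hP => ?_⟩
  have h := hf P hP
  rw [zmult_sub_single] at h
  omega

end Rational

/-- (Av4) over `K` itself: a nonzero section of `L(D - R)` whose residual divisor avoids `S` -/
theorem exists_mem_sub_single_self (hx : IsFF K x) (hsep : Algebra.IsSeparable K⟮x⟯ F) {g : ℕ}
    (hR : Fermat.Agent.S18.NonSpecial.RiemannHyp K F g) {D : Divisor K F}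
    (hD : 2 * (g : ℤ) + 1 ≤ Divisor.degree D) (R : Place K F)
    (S : Finset (Place K F)) [DecidableEq (Place K F)] :
    ∃ f ∈ riemannRochSpace (D - Finsupp.single R 1), f ≠ 0 ∧
      ∀ P ∈ S, zmult D f P = if P = R then 1 else 0 :=
  exists_mem_sub_single (k0 := K) hx hsep hR hD R (riemannRochSpace (D - Finsupp.single R 1))
    (fun _ hu => hu) Submodule.subset_span S

/-- (Av4), divisor form, over `K` itself -/
theorem exists_mem_sub_self (hx : IsFF K x) (hsep : Algebra.IsSeparable K⟮x⟯ F) {g : ℕ}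
    (hR : Fermat.Agent.S18.NonSpecial.RiemannHyp K F g) {D A : Divisor K F}
    (hD : 2 * (g : ℤ) ≤ Divisor.degree (D - A)) (S : Finset (Place K F)) :
    ∃ f ∈ riemannRochSpace (D - A), f ≠ 0 ∧ ∀ P ∈ S, zmult D f P = A P :=
  exists_mem_sub (k0 := K) hx hsep hR hD (riemannRochSpace (D - A))
    (fun _ hu => hu) Submodule.subset_span S

/-- B.7, divisor form: for finitely many divisors `A k` with `deg (D - A k) ≥ 2g` two choices
`f1 k`, `f2 k` of nonzero sections of `L(D - A k)` such that every place `P` is off all the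
residual divisors `Z(f1 k) - A k` or off all the residual divisors `Z(f2 k) - A k`. -/
theorem exists_two_families_sub (hx : IsFF K x) (hsep : Algebra.IsSeparable K⟮x⟯ F) {g : ℕ}
    (hR : Fermat.Agent.S18.NonSpecial.RiemannHyp K F g) {D : Divisor K F} {ι : Type*} [Finite ι]
    (A : ι → Divisor K F) (hD : ∀ k, 2 * (g : ℤ) ≤ Divisor.degree (D - A k)) :
    ∃ f1 f2 : ι → F,
      (∀ k, f1 k ∈ riemannRochSpace (D - A k) ∧ f1 k ≠ 0) ∧
      (∀ k, f2 k ∈ riemannRochSpace (D - A k) ∧ f2 k ≠ 0) ∧
      ∀ P, (∀ k, zmult D (f1 k) P = A k P) ∨ (∀ k, zmult D (f2 k) P = A k P) := by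
  classical
  have := Fintype.ofFinite ι
  have h1 : ∀ k, ∃ f ∈ riemannRochSpace (D - A k), f ≠ 0 ∧
      ∀ P ∈ (∅ : Finset (Place K F)), zmult D f P = A k P := fun k =>
    exists_mem_sub_self hx hsep hR (hD k) ∅
  choose f1 hf1 hf1' _ using h1
  let T : Finset (Place K F) := Finset.univ.biUnion fun k : ι =>
    (finite_zmult_ne_zero (D - A k) (hf1' k)).toFinset
  have h2 : ∀ k, ∃ f ∈ riemannRochSpace (D - A k), f ≠ 0 ∧
      ∀ P ∈ T, zmult D f P = A k P := fun k =>
    exists_mem_sub_self hx hsep hR (hD k) T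
  choose f2 hf2 hf2' hf2T using h2
  refine ⟨f1, f2, fun k => ⟨hf1 k, hf1' k⟩, fun k => ⟨hf2 k, hf2' k⟩, fun P => ?_⟩
  by_cases hP : P ∈ T
  · exact Or.inr fun k => hf2T k P hP
  · refine Or.inl fun k => ?_
    have h : zmult (D - A k) (f1 k) P = 0 := by
      by_contra hne
      apply hP
      refine Finset.mem_biUnion.mpr ⟨k, Finset.mem_univ k, ?_⟩
      rw [Set.Finite.mem_toFinset]
      exact hne
    rw [zmult_sub] at h
    omega

/-- B.7: for finitely many places `R k` (repetitions allowed) two choices `f1 k`, `f2 k` of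
nonzero sections of `L(D - R k)` such that every place `P` is off all the residual divisors
`Z(f1 k) - R k` or off all the residual divisors `Z(f2 k) - R k`. -/
theorem exists_two_families (hx : IsFF K x) (hsep : Algebra.IsSeparable K⟮x⟯ F) {g : ℕ}
    (hR : Fermat.Agent.S18.NonSpecial.RiemannHyp K F g) {D : Divisor K F}
    (hD : 2 * (g : ℤ) + 1 ≤ Divisor.degree D) {ι : Type*} [Finite ι] (R : ι → Place K F)
    [DecidableEq (Place K F)] :
    ∃ f1 f2 : ι → F,
      (∀ k, f1 k ∈ riemannRochSpace (D - Finsupp.single (R k) 1) ∧ f1 k ≠ 0) ∧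
      (∀ k, f2 k ∈ riemannRochSpace (D - Finsupp.single (R k) 1) ∧ f2 k ≠ 0) ∧
      ∀ P, (∀ k, zmult D (f1 k) P = if P = R k then 1 else 0) ∨
        (∀ k, zmult D (f2 k) P = if P = R k then 1 else 0) := by
  have hdeg : ∀ k, 2 * (g : ℤ) ≤ Divisor.degree (D - Finsupp.single (R k) 1) := by
    intro k
    rw [map_sub, Divisor.degree_single, hR.deg_one (R k)]
    simp only [Nat.cast_one, mul_one]
    omega
  obtain ⟨f1, f2, h1, h2, h3⟩ := exists_two_families_sub hx hsep hR
    (fun k => Finsupp.single (R k) (1 : ℤ)) hdeg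
  have hrw : ∀ (k : ι) (P : Place K F),
      (Finsupp.single (R k) (1 : ℤ) : Divisor K F) P = if P = R k then 1 else 0 := by
    intro k P
    rw [Finsupp.single_apply]
    by_cases h : P = R k
    · rw [if_pos h.symm, if_pos h]
    · rw [if_neg (Ne.symm h), if_neg h]
  refine ⟨f1, f2, h1, h2, fun P => ?_⟩
  rcases h3 P with h | h
  · exact Or.inl fun k => by rw [h k, hrw]
  · exact Or.inr fun k => by rw [h k, hrw]

/-! ### the coefficient form: `U0` = the `k0`-span of a finite family spanning `L(D)` over `K` -/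

section Family

variable {k0 : Type*} [Field k0] [Infinite k0] [Module k0 F] [SMul k0 K] [IsScalarTower k0 K F]
  {ι : Type*} (v : ι → F)

/-- (Av1) + (Av3) in coefficient form: `v` a finite family of sections spanning `L(D)` over `K`
(e.g. a basis of rational functions), `deg D ≥ 2g`: `m` combinations of the `v j` with
coefficients in `k0` whose zero divisors avoid `S` and are pairwise disjoint. -/
theorem exists_coeff_family_of_le_degree [Fintype ι] (hx : IsFF K x)
    (hsep : Algebra.IsSeparable K⟮x⟯ F) {g : ℕ}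
    (hR : Fermat.Agent.S18.NonSpecial.RiemannHyp K F g) {D : Divisor K F}
    (hD : 2 * (g : ℤ) ≤ Divisor.degree D) (hv : ∀ j, v j ∈ riemannRochSpace D)
    (hspan : riemannRochSpace D ≤ Submodule.span K (Set.range v))
    (S : Finset (Place K F)) (m : ℕ) :
    ∃ c : Fin m → ι → k0, (∀ i, ∑ j, c i j • v j ≠ 0) ∧
      (∀ i, ∀ P ∈ S, zmult D (∑ j, c i j • v j) P = 0) ∧
      ∀ i i', i ≠ i' → ∀ P,
        zmult D (∑ j, c i j • v j) P = 0 ∨ zmult D (∑ j, c i' j • v j) P = 0 := by
  obtain ⟨f, hf1, hf2, hf3⟩ := exists_family_of_le_degree hx hsep hR hD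
    (Submodule.span k0 (Set.range v)) (mem_of_mem_span_range v hv)
    (le_span_of_le_span_range v hspan) S m
  have hc : ∀ i, ∃ c : ι → k0, ∑ j, c j • v j = f i := fun i =>
    (Submodule.mem_span_range_iff_exists_fun k0).mp (hf1 i).1
  choose c hc using hc
  refine ⟨c, fun i => ?_, fun i => ?_, fun i i' hii' P => ?_⟩
  · rw [hc i]
    exact (hf1 i).2
  · rw [hc i]
    exact hf2 i
  · rw [hc i, hc i']
    exact hf3 i i' hii' P

end Family

end Frame

end Fermat.Agent.S17.RR.Avoid
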