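import Mathlib
import Fermat.Agent.S17.RR.RiemannRoch

/-!
# PROJECT H (S17), Part B item B.9 (divisor level): the choice of the complementary divisor `B`

Setting of `S17/RR/RiemannRoch.lean`.  `Kd := canDiv hx hsep`.

* `exists_add_single_ell_eq_one` : `l(A) = 1`, `deg A ≤ g - 1`, `T` a finite set of places with
  more than `2g - 2 - deg A` elements  ⟹  some `t ∈ T` has `l(A + t) = 1`
  (`t` is not a base point of `|Kd - A|`).
* `exists_sumPlaces_ell_eq_one` : `l(A) = 1`, `deg A = r ≤ g`, `2g ≤ |T| + r + 1`  ⟹  there is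
  `S ⊆ T` with `|S| = g - r` and `l(A + ∑_{t ∈ S} t) = 1`.
* `conditions_of_ell_eq_one` : `A, B ≥ 0`, `l(A + B) = 1`, `deg (A + B) = g`  ⟹  `l(B) = 1`,
  `l(Kd - B) = deg A` and `L(Kd - B - A) = 0` (`A` imposes independent conditions on `L(Kd - B)`).
-/

set_option autoImplicit false

namespace Fermat.Agent.S17.RR

open AlgebraicCurve IntermediateField
  Fermat.Agent.S24.FF Fermat.Agent.S24.Ord
  Fermat.Agent.S18.A Fermat.Agent.S37.Diff.OrdBounds

universe u w

variable {K : Type w} {F : Type u} [Field K] [Field F] [Algebra K F]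

local notation "ℓ" => Fermat.Agent.S18.NonSpecial.ell

/-- the support of an effective divisor has at most `deg` elements (all places of degree one) -/
theorem card_support_le_degree (hdeg : ∀ v : Place K F, v.deg = 1) {Z : Divisor K F}
    (hZ : 0 ≤ Z) : (Z.support.card : ℤ) ≤ Divisor.degree Z := by
  rw [HurwitzCore.degree_eq_sum_of_deg_one hdeg Z]
  have h1 : ∀ Q ∈ Z.support, (1 : ℤ) ≤ Z Q := by
    intro Q hQ
    have h0 : 0 ≤ Z Q := by
      have := Finsupp.le_def.mp hZ Q
      simpa using this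
    have hne : Z Q ≠ 0 := Finsupp.mem_support_iff.mp hQ
    omega
  calc (Z.support.card : ℤ) = ∑ _Q ∈ Z.support, (1 : ℤ) := by simp
    _ ≤ ∑ Q ∈ Z.support, Z Q := Finset.sum_le_sum h1

/-- `l(D) = 0` means `L(D) = 0` -/
theorem rr_eq_bot_of_ell_eq_zero {D : Divisor K F} [Module.Finite K (riemannRochSpace D)]
    (h : ℓ D = 0) : riemannRochSpace D = ⊥ := by
  have := Submodule.finrank_eq_zero (S := riemannRochSpace D)
  exact this.mp h

section Main

variable [IsAlgClosed K] {x : F}

/-- **one step**: a point of `T` which is not a base point of `|Kd - A|`. -/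
theorem exists_add_single_ell_eq_one [HasPrincipalDivisors K F] (hx : IsFF K x)
    (hsep : Algebra.IsSeparable K⟮x⟯ F) {g : ℕ}
    (hR : Fermat.Agent.S18.NonSpecial.RiemannHyp K F g) {A : Divisor K F} (hA : ℓ A = 1)
    (hdeg : Divisor.degree A ≤ (g : ℤ) - 1) (T : Finset (Place K F))
    (hT : 2 * (g : ℤ) - 2 - Divisor.degree A < T.card) :
    ∃ t ∈ T, ℓ (A + Finsupp.single t 1) = 1 := by
  classical
  have hfin := hR.finite
  set C : Divisor K F := canDiv hx hsep - A with hC
  -- `l(Kd - A) = g - deg A ≥ 1`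
  have hRR := riemann_roch hx hsep hR A
  rw [hA, ← hC] at hRR
  have hCpos : 0 < ℓ C := by
    have : (0 : ℤ) < (ℓ C : ℤ) := by push_cast at hRR ⊢; omega
    exact_mod_cast this
  have := hfin C
  have hnt : Nontrivial (riemannRochSpace C) := Module.nontrivial_of_finrank_pos hCpos
  obtain ⟨w, hw⟩ := exists_ne (0 : riemannRochSpace C)
  have hw0 : (w : F) ≠ 0 := fun h0 => hw (Subtype.ext h0)
  obtain ⟨Dw, hDw, hDw0⟩ := HasPrincipalDivisors.exists_divisor (K := K) (w : F) hw0
  -- the effective divisor of zeros of `w` as a section of `C`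
  set Z : Divisor K F := C + Dw with hZ
  have hZnonneg : 0 ≤ Z := by
    rw [Finsupp.le_def]
    intro v
    have h1 := ((mem_riemannRochSpace_iff.mp w.2) v).resolve_left hw0
    rw [hZ, Finsupp.add_apply, hDw v]
    simp only [Finsupp.coe_zero, Pi.zero_apply]
    omega
  have hZdeg : Divisor.degree Z = 2 * (g : ℤ) - 2 - Divisor.degree A := by
    rw [hZ, map_add, hDw0, add_zero, hC, map_sub, degree_canDiv hx hsep hR]
  have hcard := card_support_le_degree hR.deg_one hZnonneg
  rw [hZdeg] at hcard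
  -- a point of `T` outside the support of `Z`
  obtain ⟨t, htT, htZ⟩ : ∃ t ∈ T, t ∉ Z.support := by
    by_contra hcon
    push_neg at hcon
    have hsub : T ⊆ Z.support := fun t ht => hcon t ht
    have := Finset.card_le_card hsub
    have h2 : (T.card : ℤ) ≤ Z.support.card := by exact_mod_cast this
    omega
  refine ⟨t, htT, ?_⟩
  have hZt : Z t = 0 := by
    by_contra hne
    exact htZ (Finsupp.mem_support_iff.mpr hne)
  -- `w ∉ L(C - t)`
  have hwnot : (w : F) ∉ riemannRochSpace (C - Finsupp.single t 1) := by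
    intro hmem
    have h1 := ((mem_riemannRochSpace_iff.mp hmem) t).resolve_left hw0
    rw [Finsupp.sub_apply, Finsupp.single_eq_same] at h1
    rw [hZ, Finsupp.add_apply, hDw t] at hZt
    omega
  have hle : C - Finsupp.single t 1 ≤ C := by
    have := Fermat.Agent.S18.NonSpecial.single_nonneg t
    exact sub_le_self C this
  have hlt : ℓ (C - Finsupp.single t 1) < ℓ C :=
    Fermat.Agent.S18.NonSpecial.ell_lt_of_mem_of_not_mem (hfin C) hle w.2 hwnot
  -- Riemann–Roch for `A + t`
  have hRR2 := riemann_roch hx hsep hR (A + Finsupp.single t 1)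
  have hC2 : canDiv hx hsep - (A + Finsupp.single t 1) = C - Finsupp.single t 1 := by
    rw [hC]; abel
  rw [hC2, map_add, Divisor.degree_single, hR.deg_one t] at hRR2
  have hge : ℓ A ≤ ℓ (A + Finsupp.single t 1) :=
    Fermat.Agent.S18.NonSpecial.ell_mono (hfin _)
      (le_add_of_nonneg_right (Fermat.Agent.S18.NonSpecial.single_nonneg t))
  rw [hA] at hge
  have hltZ : ((ℓ (C - Finsupp.single t 1) : ℕ) : ℤ) < (ℓ C : ℤ) := by exact_mod_cast hlt
  have hgeZ : (1 : ℤ) ≤ (ℓ (A + Finsupp.single t 1) : ℤ) := by exact_mod_cast hge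
  have : (ℓ (A + Finsupp.single t 1) : ℤ) = 1 := by
    push_cast at hRR hRR2
    omega
  exact_mod_cast this

/-- **choice of `B`**: complete a divisor `A` with `l(A) = 1` of degree `r ≤ g` to degree `g`
by `g - r` distinct points of a given finite set `T`, keeping `l = 1`. -/
theorem exists_sumPlaces_ell_eq_one [HasPrincipalDivisors K F] (hx : IsFF K x)
    (hsep : Algebra.IsSeparable K⟮x⟯ F) {g : ℕ}
    (hR : Fermat.Agent.S18.NonSpecial.RiemannHyp K F g) {A : Divisor K F} (hA : ℓ A = 1)
    {r : ℕ} (hdeg : Divisor.degree A = r) (T : Finset (Place K F))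
    (hT : 2 * g ≤ T.card + r + 1) :
    ∀ k : ℕ, r + k ≤ g → ∃ S : Finset (Place K F), S ⊆ T ∧ S.card = k ∧
      ℓ (A + Fermat.Agent.S18.NonSpecial.sumPlaces S) = 1 := by
  classical
  intro k
  induction k with
  | zero =>
    intro _
    exact ⟨∅, Finset.empty_subset _, Finset.card_empty,
      by rw [Fermat.Agent.S18.NonSpecial.sumPlaces_empty, add_zero]; exact hA⟩
  | succ k ih =>
    intro hk
    obtain ⟨S, hST, hScard, hSell⟩ := ih (by omega)
    set A' : Divisor K F := A + Fermat.Agent.S18.NonSpecial.sumPlaces S with hA'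
    have hdeg' : Divisor.degree A' = (r : ℤ) + k := by
      rw [hA', map_add, hdeg, Fermat.Agent.S18.NonSpecial.degree_sumPlaces hR.deg_one, hScard]
    have hcardT : (T \ S).card = T.card - k := by
      rw [Finset.card_sdiff_of_subset hST, hScard]
    have hkT : k ≤ T.card := by
      rw [← hScard]; exact Finset.card_le_card hST
    obtain ⟨t, htT, ht⟩ := exists_add_single_ell_eq_one hx hsep hR hSell
      (by rw [hdeg']; omega) (T \ S)
      (by
        rw [hdeg', hcardT]
        have : ((T.card - k : ℕ) : ℤ) = (T.card : ℤ) - k := by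
          rw [Nat.cast_sub hkT]
        rw [this]
        have hT' : (2 * g : ℤ) ≤ (T.card : ℤ) + r + 1 := by exact_mod_cast hT
        omega)
    have htS : t ∉ S := (Finset.mem_sdiff.mp htT).2
    refine ⟨insert t S, ?_, ?_, ?_⟩
    · intro a ha
      rcases Finset.mem_insert.mp ha with rfl | ha
      · exact (Finset.mem_sdiff.mp htT).1
      · exact hST ha
    · rw [Finset.card_insert_of_notMem htS, hScard]
    · rw [Fermat.Agent.S18.NonSpecial.sumPlaces_insert htS, ← add_assoc]
      exact ht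

/-- **choice of `B`**, final form: `S ⊆ T` with `|S| = g - r`, `l(A + ∑ S) = 1`,
`deg (A + ∑ S) = g`. (Pass `T := TT \ supp A` to get `B` disjoint from `A`.) -/
theorem exists_complement [HasPrincipalDivisors K F] (hx : IsFF K x)
    (hsep : Algebra.IsSeparable K⟮x⟯ F) {g : ℕ}
    (hR : Fermat.Agent.S18.NonSpecial.RiemannHyp K F g) {A : Divisor K F} (hA : ℓ A = 1)
    {r : ℕ} (hdeg : Divisor.degree A = r) (hr : r ≤ g) (T : Finset (Place K F))
    (hT : 2 * g ≤ T.card + r + 1) :
    ∃ S : Finset (Place K F), S ⊆ T ∧ S.card = g - r ∧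
      ℓ (A + Fermat.Agent.S18.NonSpecial.sumPlaces S) = 1 ∧
      Divisor.degree (A + Fermat.Agent.S18.NonSpecial.sumPlaces S) = g := by
  obtain ⟨S, hST, hScard, hSell⟩ :=
    exists_sumPlaces_ell_eq_one hx hsep hR hA hdeg T hT (g - r) (by omega)
  refine ⟨S, hST, hScard, hSell, ?_⟩
  rw [map_add, hdeg, Fermat.Agent.S18.NonSpecial.degree_sumPlaces hR.deg_one, hScard]
  push_cast [Nat.cast_sub hr]
  ring

/-- **independent conditions**: `A, B ≥ 0`, `l(A + B) = 1`, `deg (A + B) = g`. -/
theorem conditions_of_ell_eq_one [HasPrincipalDivisors K F] (hx : IsFF K x)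
    (hsep : Algebra.IsSeparable K⟮x⟯ F) {g : ℕ}
    (hR : Fermat.Agent.S18.NonSpecial.RiemannHyp K F g) {A B : Divisor K F} (hA : 0 ≤ A)
    (hB : 0 ≤ B) (hAB : ℓ (A + B) = 1) (hdeg : Divisor.degree (A + B) = g) :
    ℓ B = 1 ∧ (ℓ (canDiv hx hsep - B) : ℤ) = Divisor.degree A ∧
      riemannRochSpace (canDiv hx hsep - B - A) = ⊥ := by
  have hfin := hR.finite
  have hB1 : ℓ B = 1 := by
    have h1 : ℓ (0 : Divisor K F) ≤ ℓ B := Fermat.Agent.S18.NonSpecial.ell_mono (hfin _) hB
    have h2 : ℓ B ≤ ℓ (A + B) :=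
      Fermat.Agent.S18.NonSpecial.ell_mono (hfin _) (le_add_of_nonneg_left hA)
    rw [hR.ell_zero] at h1
    omega
  have h3 := ell_canDiv_sub hx hsep hR B
  have h4 := ell_canDiv_sub hx hsep hR (A + B)
  rw [map_add] at hdeg
  refine ⟨hB1, ?_, ?_⟩
  · rw [h3, hB1]
    push_cast
    omega
  · have h5 : canDiv hx hsep - B - A = canDiv hx hsep - (A + B) := by abel
    rw [h5]
    have := hfin (canDiv hx hsep - (A + B))
    apply rr_eq_bot_of_ell_eq_zero
    have : (ℓ (canDiv hx hsep - (A + B)) : ℤ) = 0 := by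
      rw [h4, hAB, map_add]
      push_cast
      omega
    exact_mod_cast this

end Main

end Fermat.Agent.S17.RR
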