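import Mathlib
import Fermat.Agent.S17.RR.ChoiceB
import Fermat.Agent.S17.RR.Avoid

/-!
# PROJECT H (S17), Riemann–Roch stock: the fibres of a nonconstant function with one pole

For the set `TT` of the fixed data of B.8 in the form of amendment (A2): `TT` is a union of fibres
`u = c` of ONE function `u` whose only pole is the place `oo`, of order `≤ m`.

`u ∈ L(m oo)`, `u` not constant, all places of degree one, principal divisors of degree zero.

* `fibre u c = {P | 0 < ord_P (u - c)}` (`c : K`); `finite_fibre`, `fibre_nonempty`,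
  `oo_notMem_fibre`, `not_mem_fibre_of_mem_fibre` (distinct fibres are disjoint),
  `card_fibre_le` (at most `m` points);
* `finite_bad` : only finitely many fibres meet a given finite set of places;
* `exists_fibres` : `k0` an infinite field mapping to `K`: for every `r` and every finite set `S`
  of places there are `r` distinct constants `c i ∈ k0` whose fibres `O i` (as finsets) are
  nonempty, pairwise disjoint, have at most `m` points, and avoid `S` and `oo`.
* `exists_nonconstant` : a basis of `L(D)` with at least two members has a nonconstant member.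
-/

set_option autoImplicit false

namespace Fermat.Agent.S17.RR.Fibres

open AlgebraicCurve Fermat.Agent.S24.Ord

universe u w

variable {K : Type w} {F : Type u} [Field K] [Field F] [Algebra K F]

/-- the fibre `u = c`: the zeros of `u - c` -/
def fibre (u : F) (c : K) : Set (Place K F) := {P | 0 < P.ord (u - algebraMap K F c)}

theorem mem_fibre_iff {u : F} {c : K} {P : Place K F} :
    P ∈ fibre u c ↔ 0 < P.ord (u - algebraMap K F c) := Iff.rfl

theorem sub_ne_zero_of_nonconstant {u : F} (hnc : ∀ c : K, u ≠ algebraMap K F c) (c : K) :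
    u - algebraMap K F c ≠ 0 := sub_ne_zero.mpr (hnc c)

/-- distinct fibres are disjoint -/
theorem not_mem_fibre_of_mem_fibre {u : F} (hnc : ∀ c : K, u ≠ algebraMap K F c) {c c' : K}
    (hcc' : c ≠ c') {P : Place K F} (hP : P ∈ fibre u c) : P ∉ fibre u c' := by
  intro hP'
  have h1 : P.adicValuation (u - algebraMap K F c) < 1 :=
    (ord_pos_iff P (sub_ne_zero_of_nonconstant hnc c)).mp hP
  have h2 := Fermat.Agent.S37.Diff.OrdBounds.ord_sub_algebraMap_eq_zero P hcc' h1
  rw [mem_fibre_iff, h2] at hP'
  exact lt_irrefl _ hP'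

theorem finite_fibre [HasPrincipalDivisors K F] {u : F} (hnc : ∀ c : K, u ≠ algebraMap K F c)
    (c : K) : (fibre u c).Finite := by
  obtain ⟨E, hE, -⟩ := HasPrincipalDivisors.exists_divisor (K := K) _
    (sub_ne_zero_of_nonconstant hnc c)
  refine E.support.finite_toSet.subset fun P hP => ?_
  rw [Finset.mem_coe, Finsupp.mem_support_iff, hE P]
  exact ne_of_gt hP

section OnePole

variable [HasPrincipalDivisors K F] (hdeg : ∀ v : Place K F, v.deg = 1) {oo : Place K F} {m : ℕ}
  {u : F} (hu : u ∈ riemannRochSpace (Finsupp.single oo (m : ℤ)))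
  (hnc : ∀ c : K, u ≠ algebraMap K F c)

omit [HasPrincipalDivisors K F] in
include hu in
theorem sub_const_mem (c : K) : u - algebraMap K F c ∈ riemannRochSpace (Finsupp.single oo (m : ℤ)) := by
  classical
  refine Submodule.sub_mem _ hu ?_
  rw [mem_riemannRochSpace_iff]
  intro v
  right
  rw [ord_algebraMap, Finsupp.single_apply]
  split_ifs
  · simp
  · simp

omit [HasPrincipalDivisors K F] in
include hu hnc in
/-- away from `oo` the function `u - c` is regular -/
theorem ord_nonneg_of_ne (c : K) {P : Place K F} (hP : P ≠ oo) :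
    0 ≤ P.ord (u - algebraMap K F c) := by
  classical
  have h := ((mem_riemannRochSpace_iff.mp (sub_const_mem hu c)) P).resolve_left
    (sub_ne_zero_of_nonconstant hnc c)
  rw [Finsupp.single_apply, if_neg (Ne.symm hP)] at h
  simpa using h

include hdeg hu hnc in
/-- `u - c` has a pole at `oo` -/
theorem ord_oo_neg (c : K) : oo.ord (u - algebraMap K F c) < 0 := by
  classical
  by_contra hcon
  push Not at hcon
  have : Nonempty (Place K F) := ⟨oo⟩
  have hmem : u - algebraMap K F c ∈ riemannRochSpace (0 : Divisor K F) := by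
    rw [mem_riemannRochSpace_iff]
    intro v
    right
    rw [Finsupp.zero_apply, neg_zero]
    by_cases hv : v = oo
    · rw [hv]
      exact hcon
    · exact ord_nonneg_of_ne hu hnc c hv
  obtain ⟨c', hc'⟩ := (Fermat.Agent.S18.A.Riemann.mem_rr_zero_iff hdeg).mp hmem
  apply hnc (c' + c)
  rw [map_add, ← hc']
  ring

include hdeg hu hnc in
theorem oo_notMem_fibre (c : K) : oo ∉ fibre u c := by
  intro h
  have h1 := ord_oo_neg hdeg hu hnc c
  rw [mem_fibre_iff] at h
  omega

include hdeg hu hnc in
/-- every fibre is nonempty -/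
theorem fibre_nonempty (c : K) : (fibre u c).Nonempty := by
  classical
  by_contra hcon
  rw [Set.not_nonempty_iff_eq_empty] at hcon
  obtain ⟨E, hE, hE0⟩ := HasPrincipalDivisors.exists_divisor (K := K) _
    (sub_ne_zero_of_nonconstant hnc c)
  have hEeq : E = Finsupp.single oo (E oo) := by
    ext P
    rw [Finsupp.single_apply]
    by_cases hP : oo = P
    · rw [if_pos hP, hP]
    · rw [if_neg hP, hE P]
      have h1 := ord_nonneg_of_ne hu hnc c (Ne.symm hP)
      have h2 : ¬ 0 < P.ord (u - algebraMap K F c) := by
        intro h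
        have : P ∈ fibre u c := h
        rw [hcon] at this
        exact this
      omega
  rw [hEeq, Divisor.degree_single, hdeg oo] at hE0
  have h1 := ord_oo_neg hdeg hu hnc c
  rw [← hE oo] at h1
  simp only [Nat.cast_one, mul_one] at hE0
  omega

include hdeg hu hnc in
/-- a fibre has at most `m` points -/
theorem card_fibre_le (c : K) : (finite_fibre hnc c).toFinset.card ≤ m := by
  classical
  have hne := sub_ne_zero_of_nonconstant hnc c
  obtain ⟨Z, hZ, hZdeg⟩ := Fermat.Agent.S17.RR.Avoid.exists_zeroDivisor
    (Finsupp.single oo (m : ℤ)) hne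
  have hZ0 : 0 ≤ Z := by
    rw [Finsupp.le_def]
    intro P
    rw [hZ P, Finsupp.zero_apply]
    exact Fermat.Agent.S17.RR.Avoid.zmult_nonneg hne (sub_const_mem hu c) P
  have h1 := Fermat.Agent.S17.RR.card_support_le_degree hdeg hZ0
  rw [hZdeg, Divisor.degree_single, hdeg oo] at h1
  have hsub : (finite_fibre hnc c).toFinset ⊆ Z.support := by
    intro P hP
    rw [Set.Finite.mem_toFinset, mem_fibre_iff] at hP
    rw [Finsupp.mem_support_iff, hZ P]
    unfold Fermat.Agent.S17.RR.Avoid.zmult
    have hPoo : P ≠ oo := by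
      intro h
      rw [h] at hP
      have := ord_oo_neg hdeg hu hnc c
      omega
    rw [Finsupp.single_apply, if_neg (Ne.symm hPoo)]
    omega
  have h2 := Finset.card_le_card hsub
  have h3 : ((finite_fibre hnc c).toFinset.card : ℤ) ≤ (m : ℤ) := by
    have : ((finite_fibre hnc c).toFinset.card : ℤ) ≤ (Z.support.card : ℤ) := by
      exact_mod_cast h2
    simp only [Nat.cast_one, mul_one] at h1
    omega
  exact_mod_cast h3

omit [HasPrincipalDivisors K F] in
include hnc in
/-- only finitely many fibres meet a given finite set of places -/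
theorem finite_bad (S : Finset (Place K F)) : {c : K | ∃ P ∈ S, P ∈ fibre u c}.Finite := by
  classical
  have hsub : {c : K | ∃ P ∈ S, P ∈ fibre u c} ⊆ ⋃ P ∈ S, {c : K | P ∈ fibre u c} := by
    intro c hc
    obtain ⟨P, hP, hPc⟩ := hc
    exact Set.mem_biUnion hP hPc
  refine (Set.Finite.biUnion S.finite_toSet fun P _ => ?_).subset hsub
  refine Set.Subsingleton.finite ?_
  intro c hc c' hc'
  by_contra hne
  exact not_mem_fibre_of_mem_fibre hnc hne hc hc'

include hdeg hu hnc in
/-- **the fibres for `TT`**: `r` distinct constants from an infinite field `k0` whose fibres avoid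
a given finite set `S` (and `oo`); the fibres are nonempty, pairwise disjoint, with `≤ m` points. -/
theorem exists_fibres {k0 : Type*} [Field k0] [Infinite k0] [Algebra k0 K]
    (S : Finset (Place K F)) (r : ℕ) :
    ∃ (c : Fin r → k0) (O : Fin r → Finset (Place K F)), Function.Injective c ∧
      (∀ i P, P ∈ O i ↔ 0 < P.ord (u - algebraMap K F (algebraMap k0 K (c i)))) ∧
      (∀ i, (O i).Nonempty) ∧ (∀ i, (O i).card ≤ m) ∧ (∀ i, oo ∉ O i) ∧
      (∀ i, ∀ P ∈ S, P ∉ O i) ∧ ∀ i j, i ≠ j → Disjoint (O i) (O j) := by
  classical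
  have hinj : Function.Injective (algebraMap k0 K) := (algebraMap k0 K).injective
  have hbad : {c : k0 | ∃ P ∈ S, P ∈ fibre u (algebraMap k0 K c)}.Finite := by
    have hpre : {c : k0 | ∃ P ∈ S, P ∈ fibre u (algebraMap k0 K c)} =
        (algebraMap k0 K) ⁻¹' {c : K | ∃ P ∈ S, P ∈ fibre u c} := rfl
    rw [hpre]
    exact (finite_bad hnc S).preimage hinj.injOn
  have hgood : ({c : k0 | ∃ P ∈ S, P ∈ fibre u (algebraMap k0 K c)}ᶜ).Infinite :=
    hbad.infinite_compl
  obtain ⟨T, hTsub, hTcard⟩ := hgood.exists_subset_card_eq r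
  let e : Fin r ≃ T := (Finset.equivFinOfCardEq hTcard).symm
  refine ⟨fun i => (e i : k0), fun i => (finite_fibre hnc (algebraMap k0 K (e i : k0))).toFinset,
    ?_, ?_, ?_, ?_, ?_, ?_, ?_⟩
  · intro i j hij
    exact e.injective (Subtype.ext hij)
  · intro i P
    rw [Set.Finite.mem_toFinset]
    rfl
  · intro i
    obtain ⟨P, hP⟩ := fibre_nonempty hdeg hu hnc (algebraMap k0 K (e i : k0))
    exact ⟨P, (Set.Finite.mem_toFinset _).mpr hP⟩
  · intro i
    exact card_fibre_le hdeg hu hnc _
  · intro i h
    exact oo_notMem_fibre hdeg hu hnc _ ((Set.Finite.mem_toFinset _).mp h)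
  · intro i P hP h
    have hmem : (e i : k0) ∈ ({c : k0 | ∃ P ∈ S, P ∈ fibre u (algebraMap k0 K c)}ᶜ) :=
      hTsub (e i).2
    exact hmem ⟨P, hP, (Set.Finite.mem_toFinset _).mp h⟩
  · intro i j hij
    rw [Finset.disjoint_left]
    intro P hPi hPj
    have hne : algebraMap k0 K (e i : k0) ≠ algebraMap k0 K (e j : k0) := by
      intro h
      exact hij (e.injective (Subtype.ext (hinj h)))
    exact not_mem_fibre_of_mem_fibre hnc hne ((Set.Finite.mem_toFinset _).mp hPi)
      ((Set.Finite.mem_toFinset _).mp hPj)

end OnePole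

/-- a linearly independent family with at least two members has a nonconstant member -/
theorem exists_nonconstant {ι : Type*} {v : ι → F} (hli : LinearIndependent K v) {i j : ι}
    (hij : i ≠ j) : ∃ l, ∀ c : K, v l ≠ algebraMap K F c := by
  classical
  by_contra hcon
  push Not at hcon
  obtain ⟨a, ha⟩ := hcon i
  obtain ⟨b, hb⟩ := hcon j
  have ha0 : a ≠ 0 := by
    intro h
    rw [h, map_zero] at ha
    exact hli.ne_zero i ha
  have hrel : Finsupp.linearCombination K v (Finsupp.single i b - Finsupp.single j a) = 0 := by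
    rw [map_sub, Finsupp.linearCombination_single, Finsupp.linearCombination_single, ha, hb,
      Algebra.smul_def, Algebra.smul_def]
    ring
  have hzero := linearIndependent_iff.mp hli _ hrel
  have h1 := DFunLike.congr_fun hzero j
  rw [Finsupp.sub_apply, Finsupp.single_apply, if_neg hij, Finsupp.single_apply, if_pos rfl,
    Finsupp.zero_apply, zero_sub, neg_eq_zero] at h1
  exact ha0 h1

end Fermat.Agent.S17.RR.Fibres
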